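import Fermat.Agent.S49.LinAlg
import Fermat.Agent.S59.TW.H658.Transfer

/-!
# Row HARD / S59-TW, (NU): eigenvector from relations (Mathlib + S49.LinAlg + H658.Transfer)
(helper227)
-/

set_option autoImplicit false
set_option linter.style.haveILetI false

namespace Fermat.Agent.S38.H227

open Fermat.Agent.S59.TW.H658

open scoped IsMulCommutative in
/-- **Eigenvector from relations.**  `T' : σ → End_K V` a commuting family on a finite
dimensional vector space over an algebraically closed field, `s : σ → R` values in a domain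
satisfying every noncommutative polynomial relation of the `T' i`.  Then there are a simultaneous
eigenvector `g ≠ 0`, with eigenvalues `c i` in a subring `R₀` of `K`, and a ring homomorphism
`L : R₀ → R` with `L (c i) = s i`. -/
theorem exists_eigen_of_rel {K V : Type*} [Field K] [IsAlgClosed K]
    [AddCommGroup V] [Module K V] [FiniteDimensional K V]
    {σ : Type*} (T' : σ → Module.End K V) (hcomm : ∀ i j, Commute (T' i) (T' j))
    {R : Type*} [CommRing R] [IsDomain R] (s : σ → R)
    (hrel : ∀ P : FreeAlgebra ℤ σ, FreeAlgebra.lift ℤ T' P = 0 → FreeAlgebra.lift ℤ s P = 0) :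
    ∃ (g : V) (R₀ : Subring K) (L : R₀ →+* R) (c : σ → R₀),
      g ≠ 0 ∧ ∀ i, T' i g = (c i : K) • g ∧ L (c i) = s i := by
  classical
  haveI hB : IsMulCommutative (Algebra.adjoin ℤ (Set.range T')) :=
    Algebra.isMulCommutative_adjoin ℤ (by
      rintro _ ⟨i, rfl⟩ _ ⟨j, rfl⟩
      exact (hcomm i j).eq)
  obtain ⟨κ, hκ, -⟩ := exists_ringHom_of_rel_gen T' s hrel
  haveI : (RingHom.ker κ).IsPrime := RingHom.ker_isPrime κ
  obtain ⟨g, χ', hg0, hgeig, hker⟩ := Fermat.Agent.S49.exists_eigenvector_ker_le
    ((Algebra.adjoin ℤ (Set.range T')).val : Algebra.adjoin ℤ (Set.range T') →+* Module.End K V)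
    Subtype.val_injective (RingHom.ker κ)
  -- the lift of `κ` through the range of `χ'`
  have hker' : RingHom.ker χ'.rangeRestrict ≤ RingHom.ker κ := by
    intro b hb
    apply hker
    rw [RingHom.mem_ker] at hb ⊢
    have := congrArg Subtype.val hb
    simpa using this
  let L : χ'.range →+* R :=
    χ'.rangeRestrict.liftOfRightInverse (Function.surjInv χ'.rangeRestrict_surjective)
      (Function.rightInverse_surjInv χ'.rangeRestrict_surjective) ⟨κ, hker'⟩
  have hL : ∀ b, L (χ'.rangeRestrict b) = κ b := fun b =>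
    χ'.rangeRestrict.liftOfRightInverse_comp_apply _
      (Function.rightInverse_surjInv χ'.rangeRestrict_surjective) ⟨κ, hker'⟩ b
  refine ⟨g, χ'.range, L,
    fun i => χ'.rangeRestrict ⟨T' i, Algebra.subset_adjoin ⟨i, rfl⟩⟩, hg0, fun i => ⟨?_, ?_⟩⟩
  · exact hgeig ⟨T' i, Algebra.subset_adjoin ⟨i, rfl⟩⟩
  · rw [hL, hκ]

end Fermat.Agent.S38.H227
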