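import Fermat.Agent.S38.H227.DictTot
import Fermat.Agent.S38.H227.EigenRel

/-!
# Row HARD / S59-TW, (NU): the Eichler–Shimura dictionary, relation (character) form
(helper227)

`Γ₁(M) ≤ K ≤ Γ₀(M)`, `TwistHyp K N' u` (helper658), `dv : ι → (ℤ/M)ˣ` a family of diamond
operators.  A system of values `cT ℓ`, `ε j` in a domain `R` satisfying every noncommutative
polynomial relation of the operators `t_ℓ = ⟨u ℓ⟩ T_ℓ`, `⟨dv j⟩` on the parabolic classes in
`Hom(K, ℂ)` (this is the conclusion of `suppRel` for a point of the Hecke ring through the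
`χ`-part of the Betti module) is the eigen-system of a nebentypus form:

* `dict` : there are a character `χ` trivial on `K`, `f ≠ 0` in `S₂(M, χ)`, a subring
  `R₀ ⊆ ℂ`, `L : R₀ → R` and `c ℓ ∈ R₀` with `χ(u ℓ) T_ℓ f = c ℓ • f`, `L (c ℓ) = cT ℓ`,
  `χ(dv j) ∈ R₀` and `L (χ(dv j)) = ε j`;
* `dict_twist` : the twist `F = nebTwist D f ∈ S₂(Γ₀(N'))` is nonzero and
  `T_ℓ F = c ℓ • F` for the good primes.

Only Eichler–Shimura SURJECTIVITY is used (`H658.exists_perG_add_conj_of_isMid`): no injectivity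
of the period map, no finiteness of `Hom(K, ℂ)`.
-/

set_option autoImplicit false
set_option linter.unusedSectionVars false
set_option linter.style.haveILetI false

noncomputable section

namespace Fermat.Agent.S38.H227

open CongruenceSubgroup ModularForm ModularCurve ModularCurve.Period
open UpperHalfPlane hiding I
open Fermat.Agent.S59.TW.H653 Fermat.Agent.S59.TW.H658
open scoped MatrixGroups ModularForm

variable {M : ℕ} [NeZero M] {K : Subgroup SL(2, ℤ)} [K.FiniteIndex]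

/-- **DICT, relation form.** -/
theorem dict (hK : IsMid M K) {N' : ℕ} [NeZero N'] {u : ℕ → (ZMod M)ˣ}
    (H : TwistHyp K N' u) (S : Set ℕ) {ι : Type*} (dv : ι → (ZMod M)ˣ)
    {R : Type*} [CommRing R] [IsDomain R] (cT : GoodPrime N' S → R) (ε : ι → R)
    (hrel : ∀ P : FreeAlgebra ℤ (GoodPrime N' S ⊕ ι),
      (∀ y : Additive K →+ ℂ, IsParabolicHom K y →
        FreeAlgebra.lift ℤ (opFam hK ℂ H.dvd u dv) P y = 0) →
      FreeAlgebra.lift ℤ (Sum.elim cT ε) P = 0) :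
    ∃ (e : NebIdx M K) (f : nebSub M e.1) (R₀ : Subring ℂ) (L : R₀ →+* R)
      (c : GoodPrime N' S → R₀), f ≠ 0 ∧
      (∀ i : GoodPrime N' S, L (c i) = cT i ∧
        opsNeb H.dvd u dv e (Sum.inl i) f = (c i : ℂ) • f) ∧
      (∀ j : ι, ∃ h : e.1 ((dv j : (ZMod M)ˣ) : ZMod M) ∈ R₀,
        L ⟨e.1 ((dv j : (ZMod M)ˣ) : ZMod M), h⟩ = ε j) := by
  classical
  haveI : ∀ e : NebIdx M K, FiniteDimensional ℂ (nebSub M e.1) := fun e => by
    obtain ⟨D, -⟩ := H.twist e.1 e.2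
    exact finiteDimensional_nebSub D
  obtain ⟨g, R₀, L, c, hg0, hg⟩ := exists_eigen_of_rel
    (opsTot (K := K) (S := S) H.dvd u dv) (fun s s' => opsTot_commute dv H.embHyp s s')
    (Sum.elim cT ε)
    (fun P hP => hrel P fun y hy => rel_complex_of_tot hK H.dvd H.neg u dv P hP y hy)
  -- a nonzero component
  obtain ⟨e, he⟩ : ∃ e : NebIdx M K, g e ≠ 0 := by
    by_contra hcon
    push Not at hcon
    exact hg0 (funext hcon)
  refine ⟨e, g e, R₀, L, fun i => c (Sum.inl i), he, fun i => ⟨(hg (Sum.inl i)).2, ?_⟩,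
    fun j => ?_⟩
  · have h1 := congrFun (hg (Sum.inl i)).1 e
    rw [opsTot_apply] at h1
    exact h1
  · have h1 := congrFun (hg (Sum.inr j)).1 e
    rw [opsTot_apply, opsNeb_inr] at h1
    have h2 : (e.1 ((dv j : (ZMod M)ˣ) : ZMod M) : ℂ) = (c (Sum.inr j) : ℂ) :=
      smul_left_injective ℂ he h1
    refine ⟨h2 ▸ (c (Sum.inr j)).2, ?_⟩
    have h3 : (⟨e.1 ((dv j : (ZMod M)ˣ) : ZMod M), h2 ▸ (c (Sum.inr j)).2⟩ : R₀)
        = c (Sum.inr j) := Subtype.ext h2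
    rw [h3]
    exact (hg (Sum.inr j)).2

/-- **DICT, twisted form.**  The twist `F = nebTwist D f` of the form of `dict` to `Γ₀(N')`. -/
theorem dict_twist (hK : IsMid M K) {N' : ℕ} [NeZero N'] {u : ℕ → (ZMod M)ˣ}
    (H : TwistHyp K N' u) (S : Set ℕ) {ι : Type*} (dv : ι → (ZMod M)ˣ)
    {R : Type*} [CommRing R] [IsDomain R] (cT : GoodPrime N' S → R) (ε : ι → R)
    (hrel : ∀ P : FreeAlgebra ℤ (GoodPrime N' S ⊕ ι),
      (∀ y : Additive K →+ ℂ, IsParabolicHom K y →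
        FreeAlgebra.lift ℤ (opFam hK ℂ H.dvd u dv) P y = 0) →
      FreeAlgebra.lift ℤ (Sum.elim cT ε) P = 0) :
    ∃ (χ : DirichletCharacter ℂ M) (_ : TrivOn K χ) (D : TwistDatum M N' χ) (f : nebSub M χ)
      (R₀ : Subring ℂ) (L : R₀ →+* R) (c : GoodPrime N' S → R₀),
      nebTwist D f ≠ 0 ∧
      (∀ i : GoodPrime N' S, L (c i) = cT i ∧
        CuspForm.heckeTLin 2 i.2.1 i.2.2.1 (nebTwist D f) = (c i : ℂ) • nebTwist D f) ∧
      (∀ j : ι, ∃ h : χ ((dv j : (ZMod M)ˣ) : ZMod M) ∈ R₀,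
        L ⟨χ ((dv j : (ZMod M)ˣ) : ZMod M), h⟩ = ε j) := by
  obtain ⟨e, f, R₀, L, c, hf0, hc, hd⟩ := dict hK H S dv cT ε hrel
  obtain ⟨D, hD⟩ := H.twist e.1 e.2
  refine ⟨e.1, e.2, D, f, R₀, L, c, ?_, fun i => ⟨(hc i).1, ?_⟩, hd⟩
  · intro h0
    exact hf0 (nebTwist_injective D (h0.trans (map_zero _).symm))
  · haveI : Fact i.1.Prime := ⟨i.2.1⟩
    have hℓM : ¬ i.1 ∣ M := fun h => i.2.2.1 (h.trans H.dvd)
    have h1 := heckeTLin_nebTwist D i.2.2.1 hℓM f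
    rw [hD i.1 i.2.1 i.2.2.1] at h1
    have h2 : nebT e.1 hℓM (e.1 ((u i.1 : (ZMod M)ˣ) : ZMod M)) f = (c i : ℂ) • f := (hc i).2
    rw [h2, nebTwist_smul] at h1
    exact h1

end Fermat.Agent.S38.H227
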