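import Mathlib

/-!
# Row HARD / S59-TW, DICT-R / DICT-T: relations at a vector with prime annihilator
(Mathlib only; helper227)

* `eigRel_core` : `V ⊆ X`, a family `B : σ₁ ⊕ σ₂ → End_ℤ X`, the `B (inr j)` commuting with all
  `B s` on `V`; a commutative ring `T` acting on `V` by `a`, `a (τ i) = B (inl i)` on `V`; a
  vector `y ∈ V` with `B (inr j) y = n j • y` (`n j ∈ ℤ`) and a ring homomorphism `x : T → 𝒪'`
  with `x t = 0` whenever `a t y = 0`.  Then `P(x (τ i), n j) = 0` for every noncommutative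
  polynomial `P` with `P(B) y = 0`.
  (No eigenvector of `T` is needed: `Ann y ≤ ker x` is enough.)
* `polyFam F Φ` : the family `inl i ↦ F (inl i)`, `inr j ↦ Φ(F (inr j))`, `Φ ∈ ℤ[X]`;
  `lift_polyFam` : `P(polyFam F Φ) = (subPoly Φ P)(F)`; `polyFam_commute`.
-/

set_option autoImplicit false

namespace Fermat.Agent.S38.H227

section Core

variable {𝒪 : Type*} [CommRing 𝒪] {X : Type*} [AddCommGroup X] [Module 𝒪 X]
  {σ₁ σ₂ : Type*} (V : Submodule 𝒪 X) (B : σ₁ ⊕ σ₂ → Module.End ℤ X) (n : σ₂ → ℤ)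
  {T : Type*} [CommRing T] (a : T →+* Module.End 𝒪 V) (τ : σ₁ → T)

/-- The generators of `T` attached to the two families: `τ i` and the integers `n j`. -/
def genZ : σ₁ ⊕ σ₂ → T := Sum.elim τ (fun j => ((n j : ℤ) : T))

theorem act_eq_lift_of_eigen
    (hcomm : ∀ s j, ∀ v ∈ V, B s (B (Sum.inr j) v) = B (Sum.inr j) (B s v))
    (ha : ∀ i (v : V), ((a (τ i) v : V) : X) = B (Sum.inl i) v)
    (Q : FreeAlgebra ℤ (σ₁ ⊕ σ₂)) (v : V) (hv : ∀ j, B (Sum.inr j) v = n j • (v : X)) :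
    ((a (FreeAlgebra.lift ℤ (genZ n τ) Q) v : V) : X) = FreeAlgebra.lift ℤ B Q v ∧
      ∀ j, B (Sum.inr j) (FreeAlgebra.lift ℤ B Q v) = n j • FreeAlgebra.lift ℤ B Q v := by
  induction Q using FreeAlgebra.induction generalizing v with
  | grade0 r =>
    have h1 : a (algebraMap ℤ T r) = (r : Module.End 𝒪 V) := by
      rw [algebraMap_int_eq, eq_intCast, map_intCast]
    have h2 : (((r : Module.End 𝒪 V) v : V) : X) = r • (v : X) := by
      rw [Module.End.intCast_apply]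
      rfl
    rw [AlgHom.commutes, AlgHom.commutes, h1, h2, Module.algebraMap_end_apply]
    refine ⟨rfl, fun j => ?_⟩
    rw [map_zsmul, hv j, smul_comm]
  | grade1 s =>
    rw [FreeAlgebra.lift_ι_apply, FreeAlgebra.lift_ι_apply]
    rcases s with i | j'
    · refine ⟨ha i v, fun j => ?_⟩
      rw [← hcomm (Sum.inl i) j v v.2, hv j, map_zsmul]
    · have h1 : genZ n τ (Sum.inr j') = ((n j' : ℤ) : T) := rfl
      have h2 : (((((n j' : ℤ) : Module.End 𝒪 V)) v : V) : X) = n j' • (v : X) := by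
        rw [Module.End.intCast_apply]
        rfl
      rw [h1, map_intCast, h2]
      refine ⟨(hv j').symm, fun j => ?_⟩
      rw [← hcomm (Sum.inr j') j v v.2, hv j, map_zsmul]
  | mul p q hp hq =>
    obtain ⟨hq1, hq2⟩ := hq v hv
    have hv' : ∀ j, B (Sum.inr j) ((a (FreeAlgebra.lift ℤ (genZ n τ) q) v : V) : X)
        = n j • ((a (FreeAlgebra.lift ℤ (genZ n τ) q) v : V) : X) := by
      intro j
      rw [hq1]
      exact hq2 j
    obtain ⟨hp1, hp2⟩ := hp (a (FreeAlgebra.lift ℤ (genZ n τ) q) v) hv'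
    rw [map_mul, map_mul, map_mul, Module.End.mul_apply, Module.End.mul_apply, hp1, hq1]
    refine ⟨rfl, fun j => ?_⟩
    have := hp2 j
    rwa [hq1] at this
  | add p q hp hq =>
    obtain ⟨hp1, hp2⟩ := hp v hv
    obtain ⟨hq1, hq2⟩ := hq v hv
    rw [map_add, map_add, map_add, LinearMap.add_apply, LinearMap.add_apply, Submodule.coe_add,
      hp1, hq1]
    refine ⟨rfl, fun j => ?_⟩
    rw [map_add, hp2 j, hq2 j, smul_add]

/-- Ring homomorphisms commute with noncommutative polynomials. -/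
theorem ringHom_lift' {A A' : Type*} [Ring A] [Ring A'] (φ : A →+* A') {σ : Type*} (s : σ → A)
    (P : FreeAlgebra ℤ σ) :
    φ (FreeAlgebra.lift ℤ s P) = FreeAlgebra.lift ℤ (fun i => φ (s i)) P := by
  have h : (φ.toIntAlgHom).comp (FreeAlgebra.lift ℤ s)
      = FreeAlgebra.lift ℤ (fun i => φ (s i)) := by
    apply FreeAlgebra.hom_ext
    funext i
    simp
  rw [← h]
  rfl

/-- **Relations at a vector with `Ann y ≤ ker x`.** -/
theorem eigRel_core
    (hcomm : ∀ s j, ∀ v ∈ V, B s (B (Sum.inr j) v) = B (Sum.inr j) (B s v))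
    (ha : ∀ i (v : V), ((a (τ i) v : V) : X) = B (Sum.inl i) v)
    (y : V) (hy : ∀ j, B (Sum.inr j) y = n j • (y : X))
    {𝒪' : Type*} [CommRing 𝒪'] (x : T →+* 𝒪') (hx : ∀ t : T, a t y = 0 → x t = 0)
    (P : FreeAlgebra ℤ (σ₁ ⊕ σ₂)) (hP : FreeAlgebra.lift ℤ B P y = 0) :
    FreeAlgebra.lift ℤ (Sum.elim (fun i => x (τ i)) (fun j => ((n j : ℤ) : 𝒪'))) P = 0 := by
  have h1 := (act_eq_lift_of_eigen V B n a τ hcomm ha P y hy).1
  rw [hP] at h1
  have h2 : a (FreeAlgebra.lift ℤ (genZ n τ) P) y = 0 := Subtype.ext h1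
  have h3 := hx _ h2
  rw [ringHom_lift' x] at h3
  have h4 : (fun s => x (genZ n τ s))
      = Sum.elim (fun i => x (τ i)) (fun j => ((n j : ℤ) : 𝒪')) := by
    funext s
    rcases s with i | j
    · rfl
    · simp [genZ]
  rwa [h4] at h3

end Core

section Poly

variable {σ₁ σ₂ : Type*}

/-- The substitution `inr j ↦ Φ(inr j)` on the generators. -/
noncomputable def subGen (Φ : Polynomial ℤ) : σ₁ ⊕ σ₂ → FreeAlgebra ℤ (σ₁ ⊕ σ₂)
  | Sum.inl i => FreeAlgebra.ι ℤ (Sum.inl i)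
  | Sum.inr j => Polynomial.aeval (FreeAlgebra.ι ℤ (Sum.inr j : σ₁ ⊕ σ₂)) Φ

/-- The substitution `inr j ↦ Φ(inr j)` on noncommutative polynomials. -/
noncomputable def subPoly (Φ : Polynomial ℤ) :
    FreeAlgebra ℤ (σ₁ ⊕ σ₂) →ₐ[ℤ] FreeAlgebra ℤ (σ₁ ⊕ σ₂) :=
  FreeAlgebra.lift ℤ (subGen Φ)

/-- The family `inl i ↦ F (inl i)`, `inr j ↦ Φ(F (inr j))`. -/
noncomputable def polyFam {E : Type*} [Semiring E] [Algebra ℤ E] (F : σ₁ ⊕ σ₂ → E)
    (Φ : Polynomial ℤ) : σ₁ ⊕ σ₂ → E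
  | Sum.inl i => F (Sum.inl i)
  | Sum.inr j => Polynomial.aeval (F (Sum.inr j)) Φ

theorem lift_subGen {E : Type*} [Semiring E] [Algebra ℤ E] (F : σ₁ ⊕ σ₂ → E)
    (Φ : Polynomial ℤ) (s : σ₁ ⊕ σ₂) : FreeAlgebra.lift ℤ F (subGen Φ s) = polyFam F Φ s := by
  rcases s with i | j
  · exact FreeAlgebra.lift_ι_apply F _
  · show FreeAlgebra.lift ℤ F (Polynomial.aeval (FreeAlgebra.ι ℤ (Sum.inr j)) Φ)
      = Polynomial.aeval (F (Sum.inr j)) Φ
    rw [← Polynomial.aeval_algHom_apply, FreeAlgebra.lift_ι_apply]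

/-- `P(polyFam F Φ) = (subPoly Φ P)(F)`. -/
theorem lift_polyFam {E : Type*} [Semiring E] [Algebra ℤ E] (F : σ₁ ⊕ σ₂ → E)
    (Φ : Polynomial ℤ) (P : FreeAlgebra ℤ (σ₁ ⊕ σ₂)) :
    FreeAlgebra.lift ℤ (polyFam F Φ) P = FreeAlgebra.lift ℤ F (subPoly Φ P) := by
  have h : (FreeAlgebra.lift ℤ F).comp (subPoly Φ) = FreeAlgebra.lift ℤ (polyFam F Φ) := by
    apply FreeAlgebra.hom_ext
    funext s
    simp only [Function.comp_apply, AlgHom.comp_apply, subPoly, FreeAlgebra.lift_ι_apply]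
    exact lift_subGen F Φ s
  rw [← h]
  rfl

theorem polyFam_commute {E : Type*} [Semiring E] [Algebra ℤ E] (F : σ₁ ⊕ σ₂ → E)
    (Φ : Polynomial ℤ) {s s' : σ₁ ⊕ σ₂} (hF : Commute (F s) (F s')) :
    Commute (polyFam F Φ s) (polyFam F Φ s') := by
  have key : ∀ s, polyFam F Φ s ∈ Algebra.adjoin ℤ ({F s} : Set E) := by
    intro s
    rcases s with i | j
    · exact Algebra.subset_adjoin rfl
    · exact Polynomial.aeval_mem_adjoin_singleton ℤ (F (Sum.inr j))
  have h1 : ∀ (b : E), Commute (F s) b → Commute (polyFam F Φ s) b := by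
    intro b hb
    exact (Algebra.commute_of_mem_adjoin_singleton_of_commute (key s) hb.symm).symm
  apply h1
  exact (Algebra.commute_of_mem_adjoin_singleton_of_commute (key s') hF)

end Poly

end Fermat.Agent.S38.H227
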