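import Fermat.Agent.S38.H227.NuNew
import Fermat.Agent.S38.H227.EigRelCore

/-!
# Row HARD / S59-TW: DICT-R, generic core (relation form)   (helper227)

`Γ₁(M) ≤ K ≤ Γ₀(M)`, `TwistHyp K N' u`, `V ⊆ X_K(𝒪)` a submodule of parabolic classes, a
commutative ring `T` acting on `V` by `a`, `a (πH T_ℓ) = t_ℓ = ⟨u ℓ⟩ T_ℓ` on `V`, and a vector
`y ∈ V` with `(1 + ⟨d₀⟩ + … + ⟨d₀⟩^(p-1)) y = 0`, `emb : T → O'` a ring homomorphism into a domain
of characteristic `0` with `Ann_T(y) ≤ ker emb`.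

`dictR_core` : if `d₀ ≡ 1` modulo the primes `q ≠ q₀` of `M` and `q₀² ∥ N'`, then `emb ∘ πH` is,
read in `ℂ` through `(chiF, j)`, the good eigen-system of a newform `g` of level `M₁ ∣ N'` with
`v_{q₀}(M₁) = 2`.

No eigenvector of `T` is extracted and no lying-over is used: for the operator family
`(t_ℓ, D)`, `D = 1 + ⟨d₀⟩ + … + ⟨d₀⟩^(p-1)`, every relation `P(t, D) = 0` on the parabolic classes
gives `P(t, 0) y = P(t, D) y = 0`, hence `P(emb πH T_ℓ, 0) = 0` (`eigRel_core`); on the form side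
`D` acts on the nebentypus component of `χ` by the scalar `1 + χ(d₀) + … + χ(d₀)^(p-1)`, which is
`p ≠ 0` if `χ(d₀) = 1`.
-/

set_option autoImplicit false
set_option linter.unusedSectionVars false
set_option linter.style.haveILetI false

noncomputable section

namespace Fermat.Agent.S38.H227

open CongruenceSubgroup ModularForm ModularCurve ModularCurve.Period ModularFormClass
open UpperHalfPlane hiding I
open Fermat.Agent.S59.TW.H653 Fermat.Agent.S59.TW.H658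
open scoped MatrixGroups ModularForm

/-- `Φ = 1 + X + … + X^(p-1)`. -/
def geomPoly (p : ℕ) : Polynomial ℤ := ∑ k ∈ Finset.range p, Polynomial.X ^ k

theorem aeval_geomPoly {E : Type*} [Semiring E] [Algebra ℤ E] (p : ℕ) (A : E) :
    Polynomial.aeval A (geomPoly p) = ∑ k ∈ Finset.range p, A ^ k := by
  simp [geomPoly]

variable {M : ℕ} [NeZero M] {K : Subgroup SL(2, ℤ)} [K.FiniteIndex]

/-- **DICT-R, generic core.** -/
theorem dictR_core (hK : IsMid M K) {N' : ℕ} [NeZero N'] {u : ℕ → (ZMod M)ˣ}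
    (H : TwistHyp K N' u) (S : Set ℕ) (hS : ∀ q : ℕ, q.Prime → q ∣ N' → q ∈ S)
    (hNM : ∀ r : ℕ, r.Prime → r ∣ N' → r ∣ M)
    {𝒪 : Type*} [CommRing 𝒪] [Module.IsTorsionFree ℤ 𝒪]
    (V : Submodule 𝒪 (Additive K →+ 𝒪)) (hpar : ∀ v ∈ V, IsParabolicHom K v)
    {T : Type*} [CommRing T] (a : T →+* Module.End 𝒪 V)
    (πH : CuspForm.heckeAlgebra N' 2 S →+* T)
    (ha : ∀ (i : GoodPrime N' S) (v : V),
      ((a (πH (CuspForm.heckeAlgebra.T i.2.1 i.2.2.1 i.2.2.2)) v : V) : Additive K →+ 𝒪)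
        = tFam hK 𝒪 H.dvd u i v)
    (y : V) {p : ℕ} (hp : p ≠ 0) (d₀ : (ZMod M)ˣ)
    (hd : (∑ k ∈ Finset.range p, (diamondU hK d₀)^[k] (y : Additive K →+ 𝒪)) = 0)
    {O' : Type*} [CommRing O'] [IsDomain O'] [CharZero O'] (emb : T →+* O')
    (hemb : ∀ t : T, a t y = 0 → emb t = 0)
    {q₀ : ℕ} (hv : N'.factorization q₀ = 2)
    (hdv : ∀ q : ℕ, q.Prime → q ∣ M → q ≠ q₀ →
      ((((d₀ : (ZMod M)ˣ) : ZMod M).val : ℤ) : ZMod q) = 1) :
    ∃ (chiF : CuspForm.heckeAlgebra N' 2 S →+* ℂ) (j : chiF.range →+* O')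
      (M₁ : ℕ) (_ : NeZero M₁) (g : CuspForm (Gamma0 M₁) 2),
      (∀ t, j (chiF.rangeRestrict t) = emb (πH t)) ∧ g.IsNewform ∧ M₁ ∣ N' ∧
      M₁.factorization q₀ = 2 ∧
      ∀ (ℓ : ℕ) (hℓ : ℓ.Prime) (hℓN : ¬ ℓ ∣ N') (hℓS : ℓ ∉ S),
        qCoeff g ℓ = chiF (CuspForm.heckeAlgebra.T hℓ hℓN hℓS) := by
  classical
  let dv : Unit → (ZMod M)ˣ := fun _ => d₀
  let Φ : Polynomial ℤ := geomPoly p
  let τ : GoodPrime N' S → T := fun i => πH (CuspForm.heckeAlgebra.T i.2.1 i.2.2.1 i.2.2.2)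
  -- the Betti operators
  let B : GoodPrime N' S ⊕ Unit → Module.End ℤ (Additive K →+ 𝒪) :=
    polyFam (opFam hK 𝒪 H.dvd u dv) Φ
  have hcommB : ∀ (s : GoodPrime N' S ⊕ Unit) (j : Unit), ∀ v ∈ V,
      B s (B (Sum.inr j) v) = B (Sum.inr j) (B s v) := by
    intro s j v _
    have hc : Commute (opFam hK 𝒪 H.dvd u dv s) (opFam hK 𝒪 H.dvd u dv (Sum.inr j)) :=
      LinearMap.ext fun φ => opFam_comm hK H.dvd u dv s j φ
    have := polyFam_commute (opFam hK 𝒪 H.dvd u dv) Φ hc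
    exact congrArg (fun A => A v) this.eq
  have hBy : ∀ j : Unit, B (Sum.inr j) (y : Additive K →+ 𝒪)
      = ((fun _ : Unit => (0 : ℤ)) j) • (y : Additive K →+ 𝒪) := by
    intro j
    show Polynomial.aeval (opFam hK 𝒪 H.dvd u dv (Sum.inr j)) (geomPoly p)
      (y : Additive K →+ 𝒪) = _
    rw [aeval_geomPoly, LinearMap.sum_apply, zero_smul, ← hd]
    refine Finset.sum_congr rfl fun k _ => ?_
    rw [Module.End.pow_apply]
    rfl
  -- the relations
  have hrel : ∀ P : FreeAlgebra ℤ (GoodPrime N' S ⊕ Unit),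
      FreeAlgebra.lift ℤ (polyFam (opsTot (K := K) (S := S) H.dvd u dv) Φ) P = 0 →
      FreeAlgebra.lift ℤ (Sum.elim (fun i => emb (τ i)) (fun _ : Unit => (0 : O'))) P = 0 := by
    intro P hP
    have hP' : FreeAlgebra.lift ℤ (opsTot (K := K) (S := S) H.dvd u dv) (subPoly Φ P) = 0 :=
      (lift_polyFam _ Φ P).symm.trans hP
    have h1 : FreeAlgebra.lift ℤ B P (y : Additive K →+ 𝒪) = 0 := by
      have h0 : FreeAlgebra.lift ℤ B P
          = FreeAlgebra.lift ℤ (opFam hK 𝒪 H.dvd u dv) (subPoly Φ P) :=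
        lift_polyFam _ Φ P
      rw [h0]
      exact rel_coeff_of_complex hK H.dvd u dv (subPoly Φ P)
        (fun z hz => rel_complex_of_tot hK H.dvd H.neg u dv (subPoly Φ P) hP' z hz)
        (y : Additive K →+ 𝒪) (hpar y y.2)
    have h2 := eigRel_core V B (fun _ : Unit => (0 : ℤ)) a τ hcommB ha y hBy emb hemb P h1
    simpa using h2
  -- the eigenvector on the form side
  haveI : ∀ e : NebIdx M K, FiniteDimensional ℂ (nebSub M e.1) := fun e => by
    obtain ⟨D, -⟩ := H.twist e.1 e.2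
    exact finiteDimensional_nebSub D
  obtain ⟨g, R₀, L, c, hg0, hg⟩ := exists_eigen_of_rel
    (polyFam (opsTot (K := K) (S := S) H.dvd u dv) Φ)
    (fun s s' => polyFam_commute _ Φ (opsTot_commute dv H.embHyp s s'))
    (Sum.elim (fun i => emb (τ i)) (fun _ : Unit => (0 : O'))) hrel
  obtain ⟨e, he⟩ : ∃ e : NebIdx M K, g e ≠ 0 := by
    by_contra hcon
    push Not at hcon
    exact hg0 (funext hcon)
  -- the nebentypus is ramified at `q₀`
  have hpow : ∀ (k : ℕ) (w : NebTot M K),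
      ((opsTot (K := K) (S := S) H.dvd u dv (Sum.inr ())) ^ k) w e
        = (e.1 ((d₀ : (ZMod M)ˣ) : ZMod M)) ^ k • w e := by
    intro k
    induction k with
    | zero => intro w; simp
    | succ k ih =>
      intro w
      rw [pow_succ, Module.End.mul_apply, ih, opsTot_apply, opsNeb_inr, smul_smul, pow_succ]
  have hχ1 : e.1 ((d₀ : (ZMod M)ˣ) : ZMod M) ≠ 1 := by
    intro h1
    have h2 := congrFun (hg (Sum.inr ())).1 e
    have h3 : (polyFam (opsTot (K := K) (S := S) H.dvd u dv) Φ (Sum.inr ()) g) e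
        = (p : ℂ) • g e := by
      show (Polynomial.aeval (opsTot (K := K) (S := S) H.dvd u dv (Sum.inr ()))
        (geomPoly p) g) e = _
      rw [aeval_geomPoly, LinearMap.sum_apply, Finset.sum_apply]
      simp only [hpow, h1, one_pow, one_smul]
      rw [Finset.sum_const, Finset.card_range, Nat.cast_smul_eq_nsmul]
    rw [h3] at h2
    have h4 : ((p : ℂ)) = (c (Sum.inr ()) : ℂ) := smul_left_injective ℂ he h2
    have h5 : c (Sum.inr ()) = ((p : ℕ) : R₀) := Subtype.ext (by rw [← h4]; simp)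
    have h6 := (hg (Sum.inr ())).2
    rw [h5, map_natCast] at h6
    have h7 : ((p : ℕ) : O') = 0 := h6
    exact hp (Nat.cast_eq_zero.mp h7)
  -- the twist
  obtain ⟨D, hD⟩ := H.twist e.1 e.2
  have hF0 : nebTwist D (g e) ≠ 0 := fun h0 =>
    he (nebTwist_injective D (h0.trans (map_zero _).symm))
  have heig : ∀ i : GoodPrime N' S,
      CuspForm.heckeTLin 2 i.2.1 i.2.2.1 (nebTwist D (g e))
        = ((c (Sum.inl i) : R₀) : ℂ) • nebTwist D (g e) := by
    intro i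
    haveI : Fact i.1.Prime := ⟨i.2.1⟩
    have hℓM : ¬ i.1 ∣ M := fun h => i.2.2.1 (h.trans H.dvd)
    have h1 := heckeTLin_nebTwist D i.2.2.1 hℓM (g e)
    rw [hD i.1 i.2.1 i.2.2.1] at h1
    have h2 : nebT e.1 hℓM (e.1 ((u i.1 : (ZMod M)ˣ) : ZMod M)) (g e)
        = ((c (Sum.inl i) : R₀) : ℂ) • g e := congrFun (hg (Sum.inl i)).1 e
    rw [h2, nebTwist_smul] at h1
    exact h1
  exact newform_of_twist D (g e) hF0 S hS hNM R₀ (fun i => c (Sum.inl i)) heig L
    (emb.comp πH) (fun i => ((hg (Sum.inl i)).2).symm) hv d₀ hχ1 hdv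

end Fermat.Agent.S38.H227
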