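import Fermat.Agent.S38.H227.SuppRel
import Fermat.Agent.Lib.Newform.H683.FinDim

/-!
# Row HARD / S59-TW, (NU): the Eichler–Shimura dictionary, relation form — the form side
(helper227)

`Γ₁(M) ≤ K ≤ Γ₀(M)`, `TwistHyp K N' u` (helper658).  On the form side the role of
`Hom_par(K, ℂ)` is played by the EXTERNAL direct sum `NebTot = ∏_χ S₂(M, χ)` of the nebentypus
components, `χ` running over the characters trivial on `K`, with the operators
`opsTot` : `t_ℓ ↦ (χ(u ℓ) T_ℓ)_χ`, `⟨d_j⟩ ↦ (χ(d_j))_χ`.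

* `nebTwistLin`, `finiteDimensional_nebSub` : the twist of helper658 is `ℂ`-linear, hence the
  nebentypus components are finite dimensional;
* `opsTot_commute` : the operators `opsTot` commute;
* `rel_complex_of_tot` : every noncommutative polynomial relation among the `opsTot` holds for the
  operators `t_ℓ = ⟨u ℓ⟩ T_ℓ`, `⟨d_j⟩` on the parabolic classes in `Hom(K, ℂ)`
  (Eichler–Shimura SURJECTIVITY only).
-/

set_option autoImplicit false
set_option linter.unusedSectionVars false
set_option linter.style.haveILetI false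

noncomputable section

namespace Fermat.Agent.S38.H227

open CongruenceSubgroup ModularForm ModularCurve ModularCurve.Period
open UpperHalfPlane hiding I
open Fermat.Agent.S59.TW.H653 Fermat.Agent.S59.TW.H658
open Fermat.Agent.S59.TW.H564 (twistL twistL_smul)
open scoped MatrixGroups ModularForm

variable {M : ℕ} {K : Subgroup SL(2, ℤ)}

section Twist

variable {N' : ℕ} {χ : DirichletCharacter ℂ M}

theorem nebTwist_smul (D : TwistDatum M N' χ) (c : ℂ) (F : nebSub M χ) :
    nebTwist D (c • F) = c • nebTwist D F := by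
  apply DFunLike.coe_injective
  show twistL 2 D.ψ D.L (c • (F : ℍ → ℂ)) = c • twistL 2 D.ψ D.L (F : ℍ → ℂ)
  exact twistL_smul D.L c _

/-- The twist of helper658 as a `ℂ`-linear map. -/
def nebTwistLin (D : TwistDatum M N' χ) : nebSub M χ →ₗ[ℂ] CuspForm (Gamma0 N') 2 where
  toFun := nebTwist D
  map_add' := map_add (nebTwist D)
  map_smul' := nebTwist_smul D

@[simp] theorem nebTwistLin_apply (D : TwistDatum M N' χ) (F : nebSub M χ) :
    nebTwistLin D F = nebTwist D F := rfl

theorem finiteDimensional_nebSub [NeZero N'] (D : TwistDatum M N' χ) :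
    FiniteDimensional ℂ (nebSub M χ) :=
  haveI := Fermat.Agent.Lib.Newform.H683.finiteDimensional_cuspForm N' 2
  FiniteDimensional.of_injective (nebTwistLin D) (nebTwist_injective D)

end Twist

section Tot

variable [NeZero M]

/-- The characters trivial on `K`. -/
abbrev NebIdx (M : ℕ) (K : Subgroup SL(2, ℤ)) : Type :=
  {χ : DirichletCharacter ℂ M // TrivOn K χ}

/-- The external direct sum of the nebentypus components. -/
abbrev NebTot (M : ℕ) (K : Subgroup SL(2, ℤ)) : Type :=
  (e : NebIdx M K) → nebSub M e.1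

/-- The diagonal operator of a family of operators on the components. -/
def diagOp (c : ∀ e : NebIdx M K, Module.End ℂ (nebSub M e.1)) : Module.End ℂ (NebTot M K) :=
  LinearMap.pi fun e => (c e).comp (LinearMap.proj e)

@[simp] theorem diagOp_apply (c : ∀ e : NebIdx M K, Module.End ℂ (nebSub M e.1))
    (w : NebTot M K) (e : NebIdx M K) : diagOp c w e = c e (w e) := rfl

theorem diagOp_single [DecidableEq (NebIdx M K)]
    (c : ∀ e : NebIdx M K, Module.End ℂ (nebSub M e.1)) (e : NebIdx M K) (w : nebSub M e.1) :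
    diagOp c (Pi.single e w) = Pi.single e (c e w) := by
  funext e'
  rw [diagOp_apply]
  by_cases h : e' = e
  · subst h
    rw [Pi.single_eq_same, Pi.single_eq_same]
  · rw [Pi.single_eq_of_ne h, Pi.single_eq_of_ne h, map_zero]

theorem singleNeb_injective [DecidableEq (NebIdx M K)] (e : NebIdx M K) :
    Function.Injective
      ((LinearMap.single ℂ (fun e : NebIdx M K => nebSub M e.1) e).toAddMonoidHom) := by
  intro a b h
  have h2 : (Pi.single e a : NebTot M K) e = (Pi.single e b : NebTot M K) e := congrFun h e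
  rwa [Pi.single_eq_same, Pi.single_eq_same] at h2

variable {N' : ℕ} (hMN : M ∣ N') (u : ℕ → (ZMod M)ˣ) {S : Set ℕ} {ι : Type*}
  (dv : ι → (ZMod M)ˣ)

/-- The operators on the component of `χ`: `χ(u ℓ) T_ℓ` and the scalars `χ(d_j)`. -/
def opsNeb (e : NebIdx M K) : GoodPrime N' S ⊕ ι → Module.End ℂ (nebSub M e.1)
  | Sum.inl i =>
    haveI : Fact i.1.Prime := ⟨i.2.1⟩
    nebT e.1 (fun h => i.2.2.1 (h.trans hMN)) (e.1 ((u i.1 : (ZMod M)ˣ) : ZMod M))
  | Sum.inr j => e.1 ((dv j : (ZMod M)ˣ) : ZMod M) • LinearMap.id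

/-- The operators on the external direct sum of the nebentypus components. -/
def opsTot (s : GoodPrime N' S ⊕ ι) : Module.End ℂ (NebTot M K) :=
  diagOp fun e => opsNeb hMN u dv e s

@[simp] theorem opsTot_apply (s : GoodPrime N' S ⊕ ι) (w : NebTot M K) (e : NebIdx M K) :
    opsTot hMN u dv s w e = opsNeb hMN u dv e s (w e) := rfl

theorem opsNeb_inr (e : NebIdx M K) (j : ι) (w : nebSub M e.1) :
    opsNeb hMN u dv e (Sum.inr j : GoodPrime N' S ⊕ ι) w
      = e.1 ((dv j : (ZMod M)ˣ) : ZMod M) • w := rfl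

theorem opsNeb_inl (e : NebIdx M K) (i : GoodPrime N' S) (w : nebSub M e.1) :
    opsNeb hMN u dv e (Sum.inl i : GoodPrime N' S ⊕ ι) w
      = haveI : Fact i.1.Prime := ⟨i.2.1⟩
        nebT e.1 (fun h => i.2.2.1 (h.trans hMN)) (e.1 ((u i.1 : (ZMod M)ˣ) : ZMod M)) w := rfl

end Tot

section Comm

variable [NeZero M] {N' : ℕ} {u : ℕ → (ZMod M)ˣ} {S : Set ℕ} {ι : Type*}
  (dv : ι → (ZMod M)ˣ)

/-- The operators on a nebentypus component commute (the twist is injective and intertwines them
with the Hecke operators of `Γ₀(N')`). -/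
theorem opsNeb_commute (H : EmbHyp K N' u) (e : NebIdx M K) (s s' : GoodPrime N' S ⊕ ι) :
    Commute (opsNeb H.dvd u dv e s) (opsNeb H.dvd u dv e s') := by
  obtain ⟨J, hJi, hJ⟩ := H.emb e.1 e.2
  rcases s with i | j <;> rcases s' with i' | j'
  · refine LinearMap.ext fun w => hJi ?_
    haveI : Fact i.1.Prime := ⟨i.2.1⟩
    haveI : Fact i'.1.Prime := ⟨i'.2.1⟩
    have hi : ¬ i.1 ∣ M := fun h => i.2.2.1 (h.trans H.dvd)
    have hi' : ¬ i'.1 ∣ M := fun h => i'.2.2.1 (h.trans H.dvd)
    have hc := CuspForm.heckeTLin_comm (N := N') 2 i.2.1 i.2.2.1 i'.2.1 i'.2.2.1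
    rw [Module.End.mul_apply, Module.End.mul_apply, opsNeb_inl, opsNeb_inl, opsNeb_inl,
      opsNeb_inl, ← hJ i.1 hi i.2.2.1, ← hJ i'.1 hi' i'.2.2.1, ← hJ i'.1 hi' i'.2.2.1,
      ← hJ i.1 hi i.2.2.1]
    exact congrArg (fun T => T (J w)) hc.eq
  · refine LinearMap.ext fun w => ?_
    rw [Module.End.mul_apply, Module.End.mul_apply, opsNeb_inr, opsNeb_inr, map_smul]
  · refine LinearMap.ext fun w => ?_
    rw [Module.End.mul_apply, Module.End.mul_apply, opsNeb_inr, opsNeb_inr, map_smul]
  · refine LinearMap.ext fun w => ?_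
    rw [Module.End.mul_apply, Module.End.mul_apply, opsNeb_inr, opsNeb_inr, opsNeb_inr,
      opsNeb_inr, smul_comm]

/-- The operators on the external direct sum commute. -/
theorem opsTot_commute (H : EmbHyp K N' u) (s s' : GoodPrime N' S ⊕ ι) :
    Commute (opsTot (K := K) H.dvd u dv s) (opsTot H.dvd u dv s') := by
  refine LinearMap.ext fun w => funext fun e => ?_
  have h := opsNeb_commute dv H e s s'
  have h2 := congrArg (fun T => T (w e)) h.eq
  simpa [Module.End.mul_apply] using h2

end Comm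

section Rel

variable [NeZero M] [K.FiniteIndex]

/-- The period map of the nebentypus component of `χ`. -/
def perNeb (hK : IsMid M K) (e : NebIdx M K) : nebSub M e.1 →+ (Additive K →+ ℂ) :=
  (perGL K).toAddMonoidHom.comp (nebForm hK e.1 e.2).toAddMonoidHom

@[simp] theorem perNeb_apply (hK : IsMid M K) (e : NebIdx M K) (w : nebSub M e.1) :
    perNeb hK e w = perG (nebForm hK e.1 e.2 w) := rfl

/-- The diamond operators act on the periods of the nebentypus component of `χ` through `χ`. -/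
theorem diamondU_perNeb (hK : IsMid M K) (e : NebIdx M K) (d : (ZMod M)ˣ) (w : nebSub M e.1) :
    diamondU hK d (perNeb hK e w) = perNeb hK e (e.1 ((d : (ZMod M)ˣ) : ZMod M) • w) := by
  rw [perNeb_apply, perNeb_apply, diamondU_eq hK (dUnit_sg d), ← perG_diaForm]
  congr 1
  apply DFunLike.coe_injective
  rw [coe_diaForm, coe_nebForm, coe_nebForm, w.2.2 _ (sg d).2, chiZ_of_mem, dUnit_sg]
  rfl

/-- **The relations of the form side hold on the Betti side.**  Every noncommutative polynomial
relation among the operators `opsTot` on `∏_χ S₂(M, χ)` holds for the `t_ℓ = ⟨u ℓ⟩ T_ℓ` and the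
diamond operators on the parabolic classes in `Hom(K, ℂ)`. -/
theorem rel_complex_of_tot (hK : IsMid M K) {N' : ℕ} (hMN : M ∣ N')
    (hneg : (-1 : SL(2, ℤ)) ∈ K) (u : ℕ → (ZMod M)ˣ) {S : Set ℕ} {ι : Type*}
    (dv : ι → (ZMod M)ˣ) (P : FreeAlgebra ℤ (GoodPrime N' S ⊕ ι))
    (hP : FreeAlgebra.lift ℤ (opsTot (K := K) hMN u dv) P = 0)
    (y : Additive K →+ ℂ) (hy : IsParabolicHom K y) :
    FreeAlgebra.lift ℤ (opFam hK ℂ hMN u dv) P y = 0 := by
  classical
  refine rel_of_intertwiners (opsTot (K := K) hMN u dv) (opFam hK ℂ hMN u dv)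
    (parabolicHoms ℤ K ℂ).toAddSubgroup
    (W := fun e : NebIdx M K => nebSub M e.1)
    (fun e s => endToInt ℂ _ (opsNeb hMN u dv e s))
    (fun e => (LinearMap.single ℂ (fun e : NebIdx M K => nebSub M e.1) e).toAddMonoidHom)
    (fun e => singleNeb_injective e) ?_
    (fun e => perNeb hK e) ?_
    (conjAdd _) ?_ ?_ P hP y hy
  · intro e s w
    exact (diagOp_single (fun e => opsNeb hMN u dv e s) e w).symm
  · intro e s w
    rcases s with i | j
    · haveI : Fact i.1.Prime := ⟨i.2.1⟩
      exact perG_nebForm_nebT hK e.1 e.2 (fun h => i.2.2.1 (h.trans hMN)) (u i.1) w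
    · exact (diamondU_perNeb hK e (dv j) w).symm
  · intro s x
    exact opFam_comp hK hMN u dv s (starRingEnd ℂ).toAddMonoidHom x
  · intro y hy
    obtain ⟨f₁, f₂, rfl⟩ := exists_perG_add_conj_of_isMid hK hneg y hy
    obtain ⟨w₁, hw₁⟩ := exists_nebForm_sum hK f₁
    obtain ⟨w₂, hw₂⟩ := exists_nebForm_sum hK f₂
    refine AddSubgroup.add_mem _ ?_ ?_
    · have : perG f₁ = ∑ χ : NebIdx M K, perG (nebForm hK χ.1 χ.2 (w₁ χ)) := by
        conv_lhs => rw [hw₁]
        rw [← perGL_apply, map_sum]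
        rfl
      rw [this]
      exact AddSubgroup.sum_mem _ fun χ _ => AddSubgroup.subset_closure ⟨χ, w₁ χ, Or.inl rfl⟩
    · have : conjHom (perG f₂) = ∑ χ : NebIdx M K, conjHom (perG (nebForm hK χ.1 χ.2 (w₂ χ))) := by
        conv_lhs => rw [hw₂]
        rw [← perGL_apply, map_sum, ← conjAdd_apply, map_sum]
        rfl
      rw [this]
      exact AddSubgroup.sum_mem _ fun χ _ => AddSubgroup.subset_closure ⟨χ, w₂ χ, Or.inr rfl⟩

end Rel

end Fermat.Agent.S38.H227
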