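import Fermat.Agent.S59.TW.H658.HeckeRel

/-!
# Row HARD / S59-TW, (NU): the character of an anemic eigenvector   (helper227)

* `lift_eigen` : an eigenvector of a family of operators is an eigenvector of every
  noncommutative polynomial in them;
* `exists_char_of_eigen` : `F ≠ 0` in `S₂(Γ₀(N'))` with `T_ℓ F = c ℓ • F` for the good primes
  (`ℓ ∤ N'`, `ℓ ∉ S`, `S ⊇ primes(N')`), `c ℓ` in a subring `R₀ ⊆ ℂ`, `L : R₀ → R` and a point
  `y : heckeAlgebra N' 2 S → R` with `y (T_ℓ) = L (c ℓ)`.  Then there are the character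
  `chiF : heckeAlgebra N' 2 S → ℂ` of `F` (`chiF (T_ℓ) = c ℓ`) and `j : chiF.range → R` with
  `j ∘ chiF = y`: "`chiF` is `y` read in `ℂ`" (the shape consumed by the frozen S36 through
  `S38.H47.not_isUnipotentOnInertiaAt_of_char`).
-/

set_option autoImplicit false
set_option linter.unusedSectionVars false
set_option linter.style.haveILetI false

noncomputable section

namespace Fermat.Agent.S38.H227

open CongruenceSubgroup Fermat.Agent.S59.TW.H658

/-- An eigenvector of a family of operators is an eigenvector of every noncommutative polynomial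
in them. -/
theorem lift_eigen {k V : Type*} [Field k] [AddCommGroup V] [Module k V] {σ : Type*}
    (T' : σ → Module.End k V) (c : σ → k) (g : V) (h : ∀ i, T' i g = c i • g)
    (P : FreeAlgebra ℤ σ) :
    FreeAlgebra.lift ℤ T' P g = FreeAlgebra.lift ℤ c P • g := by
  induction P using FreeAlgebra.induction with
  | grade0 r =>
    rw [AlgHom.commutes, AlgHom.commutes, Module.algebraMap_end_apply, algebraMap_int_eq,
      eq_intCast, Int.cast_smul_eq_zsmul]
  | grade1 x => rw [FreeAlgebra.lift_ι_apply, FreeAlgebra.lift_ι_apply, h]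
  | mul a b ha hb =>
    rw [map_mul, map_mul, Module.End.mul_apply, hb, map_smul, ha, smul_smul, mul_comm]
  | add a b ha hb =>
    rw [map_add, map_add, LinearMap.add_apply, ha, hb, add_smul]

/-- Ring homomorphisms commute with noncommutative polynomials. -/
theorem ringHom_lift {A B : Type*} [Ring A] [Ring B] (φ : A →+* B) {σ : Type*} (s : σ → A)
    (P : FreeAlgebra ℤ σ) :
    φ (FreeAlgebra.lift ℤ s P) = FreeAlgebra.lift ℤ (fun i => φ (s i)) P := by
  have h : (φ.toIntAlgHom).comp (FreeAlgebra.lift ℤ s)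
      = FreeAlgebra.lift ℤ (fun i => φ (s i)) := by
    apply FreeAlgebra.hom_ext
    funext i
    simp
  rw [← h]
  rfl

variable {N' : ℕ} [NeZero N'] {S : Set ℕ}

/-- **The character of an anemic eigenvector, read through a point.** -/
theorem exists_char_of_eigen (hS : ∀ q : ℕ, q.Prime → q ∣ N' → q ∈ S)
    (F : CuspForm (Gamma0 N') 2) (hF : F ≠ 0) (R₀ : Subring ℂ) (c : GoodPrime N' S → R₀)
    (heig : ∀ i : GoodPrime N' S, CuspForm.heckeTLin 2 i.2.1 i.2.2.1 F = (c i : ℂ) • F)
    {R : Type*} [CommRing R] (L : R₀ →+* R) (y : CuspForm.heckeAlgebra N' 2 S →+* R)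
    (hy : ∀ i : GoodPrime N' S, y (CuspForm.heckeAlgebra.T i.2.1 i.2.2.1 i.2.2.2) = L (c i)) :
    ∃ (chiF : CuspForm.heckeAlgebra N' 2 S →+* ℂ) (j : chiF.range →+* R),
      (∀ t, j (chiF.rangeRestrict t) = y t) ∧
      ∀ i : GoodPrime N' S, chiF (CuspForm.heckeAlgebra.T i.2.1 i.2.2.1 i.2.2.2) = (c i : ℂ) := by
  classical
  have heq := heckeAlgebra_eq_adjoin N' S hS
  -- relations of the Hecke operators hold for the eigenvalues
  have hrel : ∀ P : FreeAlgebra ℤ (GoodPrime N' S),
      FreeAlgebra.lift ℤ (heckeFam N' S) P = 0 → FreeAlgebra.lift ℤ c P = 0 := by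
    intro P hP
    have h1 := lift_eigen (heckeFam N' S) (fun i => (c i : ℂ)) F heig P
    rw [hP, LinearMap.zero_apply] at h1
    have h2 : FreeAlgebra.lift ℤ (fun i => (c i : ℂ)) P = 0 := by
      rcases smul_eq_zero.mp h1.symm with h | h
      · exact h
      · exact absurd h hF
    have h3 := ringHom_lift R₀.subtype c P
    apply Subtype.ext
    rw [Subring.coe_zero, ← h2]
    exact h3
  obtain ⟨Φ, hΦ, hΦ'⟩ := exists_ringHom_of_rel_gen (heckeFam N' S) c hrel
  let E : CuspForm.heckeAlgebra N' 2 S →+* Algebra.adjoin ℤ (Set.range (heckeFam N' S)) :=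
    (Subalgebra.equivOfEq _ _ heq).toRingEquiv.toRingHom
  have hE : ∀ i : GoodPrime N' S, E (CuspForm.heckeAlgebra.T i.2.1 i.2.2.1 i.2.2.2)
      = ⟨heckeFam N' S i, Algebra.subset_adjoin ⟨i, rfl⟩⟩ := fun i => rfl
  let χ₀ : CuspForm.heckeAlgebra N' 2 S →+* R₀ := Φ.comp E
  have hχ₀ : ∀ i : GoodPrime N' S, χ₀ (CuspForm.heckeAlgebra.T i.2.1 i.2.2.1 i.2.2.2) = c i :=
    fun i => by rw [RingHom.comp_apply, hE, hΦ]
  -- `L ∘ χ₀ = y`
  have hLy : ∀ t, L (χ₀ t) = y t := by
    intro t
    obtain ⟨P, hP⟩ : ∃ P : FreeAlgebra ℤ (GoodPrime N' S),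
        FreeAlgebra.lift ℤ (heckeFam N' S) P = (t : Module.End ℂ (CuspForm (Gamma0 N') 2)) := by
      have ht : (t : Module.End ℂ (CuspForm (Gamma0 N') 2)) ∈
          Algebra.adjoin ℤ (Set.range (heckeFam N' S)) := heq ▸ t.2
      rw [Algebra.adjoin_range_eq_range_freeAlgebra_lift] at ht
      exact ht
    -- the evaluation of `P` at the generators, in the Hecke algebra
    let G : GoodPrime N' S → CuspForm.heckeAlgebra N' 2 S :=
      fun i => CuspForm.heckeAlgebra.T i.2.1 i.2.2.1 i.2.2.2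
    have htP : t = FreeAlgebra.lift ℤ G P := by
      apply Subtype.ext
      rw [← hP]
      have := ringHom_lift
        (CuspForm.heckeAlgebra N' 2 S).val.toRingHom G P
      exact this.symm
    rw [htP, ringHom_lift χ₀ G P, ringHom_lift L _ P, ringHom_lift y G P]
    congr 2
    funext i
    rw [hχ₀, hy]
  let chiF : CuspForm.heckeAlgebra N' 2 S →+* ℂ := R₀.subtype.comp χ₀
  have hle : chiF.range ≤ R₀ := by
    rintro _ ⟨t, rfl⟩
    exact (χ₀ t).2
  refine ⟨chiF, L.comp (Subring.inclusion hle), fun t => ?_, fun i => ?_⟩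
  · rw [RingHom.comp_apply, ← hLy]
    congr 1
  · show ((χ₀ _ : R₀) : ℂ) = _
    rw [hχ₀]

end Fermat.Agent.S38.H227
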