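import Fermat.Agent.S38.IA.Hecke.H183.CmpSpecIA
import Fermat.Agent.S38.H473.PtGlue
import Fermat.Agent.S38.H227.DictR
import Fermat.Agent.S38.H47.TwistHypIA
import Fermat.Agent.S38.H47.NiceLift
import Fermat.Agent.S59.TW.H324.CuspPkg
import Fermat.Agent.S59.TW.Aut.H673.FrontDVR
import Fermat.Agent.S58.H94.EigChar

/-!
# Row HARD, cell HECKE, leaf IA-CMP, sub-leaf IA-DICT-R   (helper227)

`iaDictR227 : H183.IADictRStatement` (VERBATIM, `S38/IA/Hecke/H183/CmpSpecIA.lean`): an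
eigenvector `y` of `T_Q` in `V` with `(1 + ⟨u⟩_j + … + ⟨u⟩_j^(p-1)) y = 0` (`q_j` a Taylor–Wiles
prime, `u` a primitive root) is a newform point of a level `M₁` with `q_j² ∥ M₁`.

Chain: the point of the prime `Ann y` (`H673.exists_dvr_point`, helper673/helper109), the generic
core `H227.dictR_core` (relation form of the dictionary for the family `(t_ℓ, Φ_p(⟨d⟩))`), the
twist hypothesis at `K_IA` and the lifts `d ≡ 1 mod N₀` (helper47), cuspidality of the localised
part (helper324), and the eigen-character `H94.chigOf`.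
-/

set_option autoImplicit false
set_option linter.unusedSectionVars false
set_option linter.unusedVariables false
set_option linter.style.haveILetI false

open Polynomial IsLocalRing CongruenceSubgroup
open scoped MatrixGroups

namespace Fermat.Agent.S38.H227

open Fermat.Agent.S59.Arch Fermat.Agent.S59.TW.H959 Fermat.Agent.S59.TW Fermat.Agent.S59.H765
open Fermat.Agent.S59.TW.H653 Fermat.Agent.S59.TW.Aut Fermat.Agent.S59.TW.H658
open Fermat.Agent.S38.IA Fermat.Agent.S38.IA.Hecke Fermat.Agent.S38.IA.Hecke.H183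
open Fermat.Agent.S38.H47
open CuspForm

section Fac

variable {p : ℕ} [hpF : Fact p.Prime]
  {𝒪 : Type} [CommRing 𝒪] [IsDomain 𝒪] [IsDiscreteValuationRing 𝒪]
  {ρbar : ResidualGaloisRep (ResidueField 𝒪)} {Smin Piv : Finset ℕ}
  {k r : ℕ} {pv : Fin k → ℕ} {qv : Fin r → ℕ}

include hpF in
/-- `q² ∥ N_{Smin ∪ Piv ∪ Q}` for every Taylor–Wiles prime `q`. -/
theorem factorization_wilesLevel_tw (hR : ResidualHyp p 𝒪 ρbar Smin)
    (hPiv : IsPivotSet p ρbar Smin Piv) (hpvi : Function.Injective pv)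
    (hpvPiv : Finset.univ.image pv = Piv) {n : ℕ} (hq : IsTWSet p ρbar (Smin ∪ Piv) n qv)
    (j : Fin r) :
    (wilesLevel p .flat Smin (Smin ∪ Piv ∪ Finset.univ.image qv)).factorization (qv j) = 2 := by
  classical
  subst hpvPiv
  have hmem : ∀ i, pv i ∈ Finset.univ.image pv := fun i =>
    Finset.mem_image.mpr ⟨i, Finset.mem_univ _, rfl⟩
  have hpvp : ∀ i, (pv i).Prime ∧ pv i ∉ Smin := fun i =>
    ⟨(hPiv _ (hmem i)).1, (hPiv _ (hmem i)).2.1⟩
  have hqvp : ∀ j, (qv j).Prime ∧ qv j ∉ Smin := fun j =>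
    ⟨(hq.2.1 j).1, fun hj => (hq.2.1 j).2.1 (Finset.mem_union_left _ hj)⟩
  have hdisj : ∀ i j, pv i ≠ qv j := fun i j hij =>
    (hq.2.1 j).2.1 (Finset.mem_union_right _ (hij ▸ hmem i))
  have hinj := elim_injective pv qv hpvi hq.1 hdisj
  have hprime : ∀ s, (Sum.elim pv qv s).Prime := by
    rintro (i | j)
    · exact (hpvp i).1
    · exact (hqvp j).1
  rw [wilesLevel_IA p Smin pv qv .flat hpvi hq.1 hdisj (fun i => (hpvp i).2)
    (fun j => (hqvp j).2)]
  have hN₀ : wilesLevel p .flat Smin Smin ≠ 0 := by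
    unfold wilesLevel
    rw [Finset.sdiff_self, Finset.prod_empty, mul_one, mul_one]
    exact Finset.prod_ne_zero_iff.mpr fun q hq' =>
      (hR.hSmin q (Finset.mem_of_mem_erase hq')).ne_zero
  have hP0 : (∏ s, (Sum.elim pv qv s) ^ 2) ≠ 0 :=
    Finset.prod_ne_zero_iff.mpr fun s _ => pow_ne_zero _ (hprime s).ne_zero
  rw [Nat.factorization_mul hN₀ hP0, Finsupp.add_apply]
  have h0 : (wilesLevel p .flat Smin Smin).factorization (qv j) = 0 := by
    rw [Nat.factorization_eq_zero_iff]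
    right; left
    exact fun hd => (hqvp j).2 (mem_of_dvd_wilesLevel p .flat Smin hR.hpSmin hR.hSmin
      (hqvp j).1 hd)
  rw [h0, zero_add, Nat.factorization_prod (fun s _ => pow_ne_zero _ (hprime s).ne_zero),
    Finset.sum_apply']
  rw [Finset.sum_eq_single (Sum.inr j : Fin k ⊕ Fin r)]
  · rw [Sum.elim_inr, Nat.factorization_pow, Finsupp.smul_apply,
      (hqvp j).1.factorization_self, smul_eq_mul, mul_one]
  · intro s _ hs
    rw [Nat.factorization_pow, Finsupp.smul_apply, smul_eq_mul, mul_eq_zero]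
    right
    rw [Nat.factorization_eq_zero_iff]
    right; left
    intro hd
    have := (Nat.prime_dvd_prime_iff_eq (hqvp j).1 (hprime s)).mp hd
    exact hs (hinj (by rw [Sum.elim_inr]; exact this.symm))
  · intro h
    exact absurd (Finset.mem_univ _) h

end Fac

/-- **IA-DICT-R** (VERBATIM). -/
theorem iaDictR227 : IADictRStatement := by
  intro p hpF hp5 𝒪 _ _ _ _ _ _ ρbar Smin hR hflat Piv hPiv k pv hpv hpvPiv n r qv hq hNQ PQ α hα
    V h a hV hhalf₁ hhalf₂ ha j u hu y hy hsum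
  classical
  obtain ⟨hpvP, hpvd, hqvP, hsurj, hMne, hsig, hM⟩ :=
    Fermat.Agent.S38.H473.ia_basic_facts hR hPiv hpv hpvPiv hq
  haveI : NeZero (MIA p Smin pv qv) := ⟨hMne⟩
  have hH := twistHyp_KIA_of_spec hR hPiv hpv hpvPiv hq hhalf₁ hhalf₂
  have hvfac := factorization_wilesLevel_tw hR hPiv hpv hpvPiv hq j
  subst hpvPiv
  -- the standing facts
  have hpvMem : ∀ i, pv i ∈ Finset.univ.image pv := fun i =>
    Finset.mem_image_of_mem pv (Finset.mem_univ i)
  have hpvS : ∀ i, pv i ∉ Smin := fun i => (hPiv (pv i) (hpvMem i)).2.1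
  have hqvS : ∀ j, qv j ∉ Smin := fun j hj => (hq.2.1 j).2.1 (Finset.mem_union_left _ hj)
  have hdisj : ∀ i j, pv i ≠ qv j := fun i j hij =>
    (hq.2.1 j).2.1 (Finset.mem_union_right _ (hij ▸ hpvMem i))
  have hinj : Function.Injective (Sum.elim pv qv) := elim_injective pv qv hpv hq.1 hdisj
  have hprime : ∀ s, (Sum.elim pv qv s).Prime := by
    rintro (i | j)
    · exact hpvP i
    · exact hqvP j
  have hN₀ : wilesLevel p .flat Smin Smin ≠ 0 := wilesLevel_ne_zero hpF.out hR.hSmin hR.hSmin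
  have hcop : ∀ s, Nat.Coprime (wilesLevel p .flat Smin Smin) (Sum.elim pv qv s) := by
    intro s
    refine Nat.Coprime.symm ((Nat.Prime.coprime_iff_not_dvd (hprime s)).mpr fun hd => ?_)
    have hmem : Sum.elim pv qv s ∈ Smin :=
      mem_of_prime_dvd_wilesLevel hpF.out hR.hSmin hR.hSmin hR.hpSmin (Finset.Subset.refl _)
        _ (hprime s) hd
    rcases s with i | j
    · exact hpvS i hmem
    · exact hqvS j hmem
  have hsub : Smin ⊆ Smin ∪ Finset.univ.image pv ∪ Finset.univ.image qv :=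
    Finset.subset_union_left.trans Finset.subset_union_left
  have hSigP : ∀ q ∈ Smin ∪ Finset.univ.image pv ∪ Finset.univ.image qv, q.Prime := by
    intro q hq'
    rcases Finset.mem_union.mp hq' with h' | h'
    · rcases Finset.mem_union.mp h' with h'' | h''
      · exact hR.hSmin q h''
      · exact (hPiv q h'').1
    · obtain ⟨j, -, rfl⟩ := Finset.mem_image.mp h'
      exact hqvP j
  have hK : IsMid (MIA p Smin pv qv) (KIA p Smin pv qv) := isMid_KIA p Smin pv qv
  haveI : (KIA p Smin pv qv).FiniteIndex :=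
    Fermat.Agent.S59.TW.H564.finiteIndex_of_Gamma1_le (M := MIA p Smin pv qv) hK.ge
  -- the nice lift of the diamond index at `q_j`
  obtain ⟨d₀, hd₀, hd₀1⟩ :=
    exists_niceLift (wilesLevel p .flat Smin Smin) (Sum.elim pv qv) hN₀ hinj hprime hcop
      (pairU (1 : ∀ i : Fin k, (ZMod (pv i))ˣ) (Pi.mulSingle j u))
  have hdia : ∀ y : XIA p Smin pv qv 𝒪,
      diamondU hK d₀ y = diaIA p Smin pv qv 𝒪 1 (Pi.mulSingle j u) y := fun y =>
    diamondU_eq_gLift p (wilesLevel p .flat Smin Smin) (Sum.elim pv qv) hsurj hd₀ y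
  have hiter : ∀ (i : ℕ) (y : XIA p Smin pv qv 𝒪),
      (diamondU hK d₀)^[i] y = (diaIA p Smin pv qv 𝒪 1 (Pi.mulSingle j u))^[i] y := by
    intro i
    induction i with
    | zero => intro y; rfl
    | succ i ih =>
      intro y
      rw [Function.iterate_succ_apply, Function.iterate_succ_apply, hdia, ih]
  have hd : (∑ i ∈ Finset.range p,
      (diamondU hK d₀)^[i] (y : XIA p Smin pv qv 𝒪)) = 0 := by
    rw [← hsum]
    exact Finset.sum_congr rfl fun i _ => hiter i _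
  -- parabolic classes
  have hpar : ∀ v ∈ V, ModularCurve.Period.IsParabolicHom (KIA p Smin pv qv) v :=
    Fermat.Agent.S59.TW.H324.isLocPart_parabolic_of_pkg p 𝒪 ρbar Smin hR .flat _ hsub hSigP PQ
      hMne hK hV
  -- the point of the prime `Ann y`
  let 𝔔 : Ideal PQ.T :=
    { carrier := {s | a s y = 0}
      add_mem' := fun {s t} hs ht => by
        show a (s + t) y = 0
        rw [map_add, LinearMap.add_apply, (hs : a s y = 0), (ht : a t y = 0), add_zero]
      zero_mem' := by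
        show a 0 y = 0
        rw [map_zero, LinearMap.zero_apply]
      smul_mem' := fun c s hs => by
        show a (c • s) y = 0
        rw [smul_eq_mul, map_mul, Module.End.mul_apply, (hs : a s y = 0), map_zero] }
  have h𝔔mem : ∀ s : PQ.T, s ∈ 𝔔 ↔ a s y = 0 := fun s => Iff.rfl
  haveI h𝔔p : 𝔔.IsPrime := by
    refine ⟨?_, ?_⟩
    · intro htop
      have h1 : (1 : PQ.T) ∈ 𝔔 := by rw [htop]; exact Submodule.mem_top
      rw [h𝔔mem, map_one, Module.End.one_apply] at h1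
      exact hy.1 h1
    · intro s t hst
      exact hy.2 s t hst
  have h𝔔𝒪 : ∀ c : 𝒪, algebraMap 𝒪 PQ.T c ∈ 𝔔 → c = 0 := by
    intro c hc
    rw [h𝔔mem, AlgHom.commutes, Module.algebraMap_end_apply] at hc
    by_contra hc0
    apply hy.1
    apply Subtype.ext
    have h1 : c • (y : XIA p Smin pv qv 𝒪) = 0 := by
      have := congrArg Subtype.val hc
      simpa using this
    refine AddMonoidHom.ext fun g => ?_
    have h2 := DFunLike.congr_fun h1 g
    rw [AddMonoidHom.smul_apply, AddMonoidHom.zero_apply, smul_eq_mul] at h2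
    rcases mul_eq_zero.mp h2 with h3 | h3
    · exact absurd h3 hc0
    · simpa using h3
  obtain ⟨O', i1, i2, i3, i4, i5, i6, i7, ev, hloc, hinjO, hev⟩ :=
    Fermat.Agent.S59.TW.Aut.H673.exists_dvr_point 𝒪 PQ.T 𝔔 h𝔔𝒪
  haveI := hloc
  haveI : Algebra.IsIntegral 𝒪 PQ.T := Algebra.IsIntegral.of_finite 𝒪 PQ.T
  have hlocT : IsLocalHom ev.toRingHom :=
    Fermat.Agent.S59.TW.Aut.H673.isLocalHom_of_integral_h673 𝒪 PQ.T O' ev.toRingHom
      (fun c => AlgHom.commutes ev c)
  have hker : ∀ s : PQ.T, a s y = 0 ↔ ev.toRingHom s = 0 := fun s =>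
    ((hev s).trans (h𝔔mem s)).symm
  -- the levels
  have hNM : ∀ r' : ℕ, r'.Prime →
      r' ∣ wilesLevel p .flat Smin (Smin ∪ Finset.univ.image pv ∪ Finset.univ.image qv) →
      r' ∣ MIA p Smin pv qv := by
    intro r' hr hrN
    rw [← gLevel_mul_prod_IA p Smin pv qv .flat hpv hq.1 hdisj hpvS hqvS] at hrN
    rcases (Nat.Prime.dvd_mul hr).mp hrN with h1 | h1
    · exact h1
    · obtain ⟨s, -, hs⟩ := (Prime.dvd_finsetProd_iff hr.prime _).mp h1
      exact hs.trans (dvd_gLevel _ _ s)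
  have hdvq : ∀ q : ℕ, q.Prime → q ∣ MIA p Smin pv qv → q ≠ qv j →
      (((((d₀ : (ZMod (MIA p Smin pv qv))ˣ) :
        ZMod (MIA p Smin pv qv)).val : ℕ) : ℤ) : ZMod q) = 1 := by
    intro q hqP hqM hqne
    refine cast_niceLift_of_prime (wilesLevel p .flat Smin Smin) (Sum.elim pv qv) hprime
      hd₀ hd₀1 hqP hqM ?_
    rintro (i | j') hne
    · exact absurd rfl hne
    · by_cases hjj : j' = j
      · subst hjj
        exact hqne
      · exfalso
        apply hne
        show (Pi.mulSingle j u : ∀ j : Fin r, (ZMod (qv j))ˣ) j' = 1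
        exact Pi.mulSingle_eq_of_ne (M := fun j => (ZMod (qv j))ˣ) hjj u
  -- the dictionary
  obtain ⟨chiF, jj, M₁, hM₁, g, hj, hg, hM₁N, hM₁v, hgF⟩ :=
    dictR_core hK hH
      (↑(Smin ∪ Finset.univ.image pv ∪ Finset.univ.image qv) : Set ℕ) hsig hNM V hpar
      a.toRingHom PQ.H.π (fun i v => ha i.1 i.2.1 i.2.2.1 i.2.2.2 v) y hpF.out.ne_zero d₀ hd
      ev.toRingHom (fun t ht => (hker t).mp ht) hvfac hdvq
  haveI := hM₁
  have hM₁S : ∀ q : ℕ, q.Prime → q ∣ M₁ →
      q ∈ (↑(Smin ∪ Finset.univ.image pv ∪ Finset.univ.image qv) : Set ℕ) :=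
    fun q hqP hqd => hsig q hqP (hqd.trans hM₁N)
  have hNS : ∀ ℓ : ℕ, ℓ.Prime →
      ℓ ∉ (↑(Smin ∪ Finset.univ.image pv ∪ Finset.univ.image qv) : Set ℕ) →
      ¬ ℓ ∣ wilesLevel p .flat Smin (Smin ∪ Finset.univ.image pv ∪ Finset.univ.image qv) :=
    fun ℓ hℓ hℓS hd => hℓS (hsig ℓ hℓ hd)
  -- the eigen-character of `g`
  have hle : (Fermat.Agent.S58.H94.chigOf hg.1
      (↑(Smin ∪ Finset.univ.image pv ∪ Finset.univ.image qv) : Set ℕ)).range ≤ chiF.range :=
    Fermat.Agent.S58.H94.chigOf_range_le hg.1 _ chiF.range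
      (fun ℓ hℓ hℓM hℓS => by
        rw [hgF ℓ hℓ (hNS ℓ hℓ hℓS) hℓS]
        exact ⟨_, rfl⟩) hM₁S
  refine ⟨O', i1, i2, i3, i4, i5, i6, ev.toRingHom, hlocT, hker, M₁, hM₁, g, hg, hM₁v, hM₁S,
    Fermat.Agent.S58.H94.chigOf hg.1 _, jj.comp (Subring.inclusion hle), ?_, ?_⟩
  · intro ℓ hℓ hℓM hℓS
    exact Fermat.Agent.S58.H94.chigOf_T hg.1 _ hℓ hℓM hℓS
  · intro ℓ hℓ hℓN hℓM hℓS
    rw [← hj]
    rw [RingHom.comp_apply]
    congr 1
    apply Subtype.ext
    show Fermat.Agent.S58.H94.chigOf hg.1 _ (CuspForm.heckeAlgebra.T hℓ hℓM hℓS) =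
      chiF (CuspForm.heckeAlgebra.T hℓ hℓN hℓS)
    rw [Fermat.Agent.S58.H94.chigOf_T hg.1 _ hℓ hℓM hℓS, hgF ℓ hℓ hℓN hℓS]

end Fermat.Agent.S38.H227
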