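import Fermat.Agent.S38.H227.Dict
import Fermat.Agent.S38.H227.EigenChar
import Fermat.Agent.S59.TW.H54.TwistLNS

/-!
# Row HARD / S59-TW, (NU): points of the `χ`-part are `q²`-new at the pivots   (helper227)

Composition of the dictionary (`dict_twist`), the character of the twisted form
(`exists_char_of_eigen`) and TW-NS (`S59.TW.H54.twistL_anemic_exists_newform`, helper54).

* `mem_L_of_ne_one` : a prime `q₀` at which the nebentypus is ramified belongs to the list of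
  twisting primes of any `TwistDatum`;
* `nuNew` : `y : heckeAlgebra N' 2 S → R` a point (`R` a domain), `ε j` values for the diamond
  operators `⟨dv j⟩`, such that `(y (T_ℓ), ε j)` satisfies every relation of the
  `t_ℓ = ⟨u ℓ⟩ T_ℓ`, `⟨dv j⟩` on the parabolic classes in `Hom(K, ℂ)` (conclusion of `suppRel`),
  and a pivot `q₀`, `q₀² ∥ N'`, with `ε j₀ ≠ 1` for some `dv j₀ ≡ 1` modulo the other primes of
  `M`.  Then `y` is, read in `ℂ` through `(chiF, j)`, the good eigen-system of a newform `g` of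
  level `M₁ ∣ N'` with `v_{q₀}(M₁) = 2`: the hypotheses of
  `S38.H47.not_isUnipotentOnInertiaAt_of_char` (frozen S36).
-/

set_option autoImplicit false
set_option linter.unusedSectionVars false
set_option linter.style.haveILetI false

noncomputable section

namespace Fermat.Agent.S38.H227

open CongruenceSubgroup ModularForm ModularCurve ModularCurve.Period ModularFormClass
open UpperHalfPlane hiding I
open Fermat.Agent.S59.TW.H653 Fermat.Agent.S59.TW.H658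
open Fermat.Agent.S59.TW.H564 (chiL chiL_apply)
open scoped MatrixGroups ModularForm

/-- A prime at which the nebentypus is ramified belongs to the twisting primes. -/
theorem mem_L_of_ne_one {M N' : ℕ} {χ : DirichletCharacter ℂ M} (D : TwistDatum M N' χ)
    (q₀ : ℕ) (d : ℤ) (hd : IsCoprime d (N' : ℤ)) (hχd : chiZ χ d ≠ 1)
    (h1 : ∀ q ∈ D.L, q ≠ q₀ → ((d : ℤ) : ZMod q) = 1) : q₀ ∈ D.L := by
  by_contra hq
  apply hχd
  have h := D.triv d hd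
  rw [chiL_apply] at h
  have h2 : (D.L.map fun q => D.ψ q ((d : ℤ) : ZMod q) ^ 2).prod = 1 := by
    apply List.prod_eq_one
    intro x hx
    obtain ⟨q, hqL, rfl⟩ := List.mem_map.mp hx
    rw [h1 q hqL (fun h => hq (h ▸ hqL)), map_one, one_pow]
  rwa [h2, mul_one] at h

/-- **The twisted form is `q₀²`-new.**  `F = nebTwist D f ≠ 0` an eigenvector of the good Hecke
operators with eigenvalues `c ℓ ∈ R₀ ⊆ ℂ`, `L : R₀ → R`, `y : heckeAlgebra N' 2 S → R` a point with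
`y (T_ℓ) = L (c ℓ)`, and `χ(d₀) ≠ 1` for a unit `d₀ ≡ 1` modulo the primes `q ≠ q₀` of `M`,
`q₀² ∥ N'`.  Then `y` is, read in `ℂ` through `(chiF, j)`, the good eigen-system of a newform of
level `M₁ ∣ N'` with `v_{q₀}(M₁) = 2`. -/
theorem newform_of_twist {M N' : ℕ} [NeZero M] [NeZero N'] {χ : DirichletCharacter ℂ M}
    (D : TwistDatum M N' χ) (f : nebSub M χ) (hF0 : nebTwist D f ≠ 0)
    (S : Set ℕ) (hS : ∀ q : ℕ, q.Prime → q ∣ N' → q ∈ S)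
    (hNM : ∀ r : ℕ, r.Prime → r ∣ N' → r ∣ M)
    (R₀ : Subring ℂ) (c : GoodPrime N' S → R₀)
    (heig : ∀ i : GoodPrime N' S,
      CuspForm.heckeTLin 2 i.2.1 i.2.2.1 (nebTwist D f) = (c i : ℂ) • nebTwist D f)
    {R : Type*} [CommRing R] (L : R₀ →+* R) (y : CuspForm.heckeAlgebra N' 2 S →+* R)
    (hy : ∀ i : GoodPrime N' S, y (CuspForm.heckeAlgebra.T i.2.1 i.2.2.1 i.2.2.2) = L (c i))
    {q₀ : ℕ} (hv : N'.factorization q₀ = 2) (d₀ : (ZMod M)ˣ)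
    (hχ1 : χ ((d₀ : (ZMod M)ˣ) : ZMod M) ≠ 1)
    (hdv : ∀ q : ℕ, q.Prime → q ∣ M → q ≠ q₀ →
      ((((d₀ : (ZMod M)ˣ) : ZMod M).val : ℤ) : ZMod q) = 1) :
    ∃ (chiF : CuspForm.heckeAlgebra N' 2 S →+* ℂ) (j : chiF.range →+* R)
      (M₁ : ℕ) (_ : NeZero M₁) (g : CuspForm (Gamma0 M₁) 2),
      (∀ t, j (chiF.rangeRestrict t) = y t) ∧ g.IsNewform ∧ M₁ ∣ N' ∧
      M₁.factorization q₀ = 2 ∧
      ∀ (ℓ : ℕ) (hℓ : ℓ.Prime) (hℓN : ¬ ℓ ∣ N') (hℓS : ℓ ∉ S),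
        qCoeff g ℓ = chiF (CuspForm.heckeAlgebra.T hℓ hℓN hℓS) := by
  classical
  have hq₀L : q₀ ∈ D.L := by
    refine mem_L_of_ne_one D q₀ ((((d₀ : (ZMod M)ˣ) : ZMod M).val : ℕ) : ℤ) ?_ ?_ ?_
    · rw [Nat.isCoprime_iff_coprime]
      refine Nat.coprime_of_dvd fun r hr hr1 hr2 => ?_
      have hcop : Nat.Coprime ((d₀ : (ZMod M)ˣ) : ZMod M).val M :=
        ZMod.val_coe_unit_coprime d₀
      exact hr.one_lt.ne' (Nat.eq_one_of_dvd_coprimes hcop hr1 (hNM r hr hr2))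
    · rw [chiZ_apply]
      have : ((((((d₀ : (ZMod M)ˣ) : ZMod M).val : ℕ) : ℤ) : ℤ) : ZMod M)
          = ((d₀ : (ZMod M)ˣ) : ZMod M) := by
        rw [Int.cast_natCast, ZMod.natCast_zmod_val]
      rw [this]
      exact hχ1
    · intro q hq hne
      exact hdv q (D.prime q hq).1 (D.hL q hq).2 hne
  -- TW-NS
  let lam : ℕ → ℂ := fun ℓ =>
    if h : ℓ.Prime ∧ ¬ ℓ ∣ N' ∧ ℓ ∉ S then (c ⟨ℓ, h⟩ : ℂ) else 0
  have hlam : ∀ i : GoodPrime N' S, lam i.1 = (c i : ℂ) := fun i => dif_pos i.2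
  have heig' : ∀ (ℓ : ℕ) (hℓ : ℓ.Prime) (hℓN : ¬ ℓ ∣ N'), ℓ ∉ S →
      CuspForm.heckeTLin 2 hℓ hℓN (nebTwist D f) = lam ℓ • nebTwist D f := by
    intro ℓ hℓ hℓN hℓS
    rw [hlam ⟨ℓ, hℓ, hℓN, hℓS⟩]
    exact heig ⟨ℓ, hℓ, hℓN, hℓS⟩
  obtain ⟨M₁, hM₁, g, hg, hM₁N, hM₁v, hgl⟩ :=
    Fermat.Agent.S59.TW.H54.twistL_anemic_exists_newform D.ψ D.L D.prime (isCharMod_chiZ χ)
      D.dvd D.triv f.2.2 hq₀L (D.ψ_ne q₀ hq₀L) hv (nebTwist D f) (coe_nebTwist D f) hF0 S lam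
      heig'
  -- the character of the twisted form
  obtain ⟨chiF, j, hj, hchiF⟩ := exists_char_of_eigen hS (nebTwist D f) hF0 R₀ c heig L y hy
  refine ⟨chiF, j, M₁, hM₁, g, hj, hg, hM₁N, hM₁v, fun ℓ hℓ hℓN hℓS => ?_⟩
  rw [hgl ℓ hℓ hℓN hℓS, hlam ⟨ℓ, hℓ, hℓN, hℓS⟩]
  exact (hchiF ⟨ℓ, hℓ, hℓN, hℓS⟩).symm

variable {M : ℕ} [NeZero M] {K : Subgroup SL(2, ℤ)} [K.FiniteIndex]

/-- **Points of the `χ`-part are `q₀²`-new.** -/
theorem nuNew (hK : IsMid M K) {N' : ℕ} [NeZero N'] {u : ℕ → (ZMod M)ˣ}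
    (H : TwistHyp K N' u) (S : Set ℕ) (hS : ∀ q : ℕ, q.Prime → q ∣ N' → q ∈ S)
    (hNM : ∀ r : ℕ, r.Prime → r ∣ N' → r ∣ M)
    {ι : Type*} (dv : ι → (ZMod M)ˣ)
    {R : Type*} [CommRing R] [IsDomain R]
    (y : CuspForm.heckeAlgebra N' 2 S →+* R) (ε : ι → R)
    (hrel : ∀ P : FreeAlgebra ℤ (GoodPrime N' S ⊕ ι),
      (∀ z : Additive K →+ ℂ, IsParabolicHom K z →
        FreeAlgebra.lift ℤ (opFam hK ℂ H.dvd u dv) P z = 0) →
      FreeAlgebra.lift ℤ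
        (Sum.elim (fun i : GoodPrime N' S => y (CuspForm.heckeAlgebra.T i.2.1 i.2.2.1 i.2.2.2))
          ε) P = 0)
    {q₀ : ℕ} (hv : N'.factorization q₀ = 2) (j₀ : ι) (hε : ε j₀ ≠ 1)
    (hdv : ∀ q : ℕ, q.Prime → q ∣ M → q ≠ q₀ →
      ((((dv j₀ : (ZMod M)ˣ) : ZMod M).val : ℤ) : ZMod q) = 1) :
    ∃ (chiF : CuspForm.heckeAlgebra N' 2 S →+* ℂ) (j : chiF.range →+* R)
      (M₁ : ℕ) (_ : NeZero M₁) (g : CuspForm (Gamma0 M₁) 2),
      (∀ t, j (chiF.rangeRestrict t) = y t) ∧ g.IsNewform ∧ M₁ ∣ N' ∧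
      M₁.factorization q₀ = 2 ∧
      ∀ (ℓ : ℕ) (hℓ : ℓ.Prime) (hℓN : ¬ ℓ ∣ N') (hℓS : ℓ ∉ S),
        qCoeff g ℓ = chiF (CuspForm.heckeAlgebra.T hℓ hℓN hℓS) := by
  classical
  obtain ⟨χ, hχ, D, f, R₀, L, c, hF0, hc, hd⟩ := dict_twist hK H S dv
    (fun i : GoodPrime N' S => y (CuspForm.heckeAlgebra.T i.2.1 i.2.2.1 i.2.2.2)) ε hrel
  -- the nebentypus is ramified at `q₀`
  have hχ1 : χ ((dv j₀ : (ZMod M)ˣ) : ZMod M) ≠ 1 := by
    intro h1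
    obtain ⟨h, hL⟩ := hd j₀
    apply hε
    rw [← hL]
    have : (⟨χ ((dv j₀ : (ZMod M)ˣ) : ZMod M), h⟩ : R₀) = 1 := Subtype.ext h1
    rw [this, map_one]
  exact newform_of_twist D f hF0 S hS hNM R₀ c (fun i => (hc i).2) L y
    (fun i => ((hc i).1).symm) hv (dv j₀) hχ1 hdv

end Fermat.Agent.S38.H227
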