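import Fermat.Agent.S38.H227.SuppRelCore
import Fermat.Agent.S59.TW.H658.CoeffAction

/-!
# Row HARD / S59-TW, (NU): SUPP-REL   (helper227)

Vocabulary of helper653 / helper658: `Γ₁(M) ≤ K ≤ Γ₀(M)` (`IsMid M K`), `X_K(A) = Hom(K, A)`,
`t_ℓ = ⟨u ℓ⟩ T_ℓ` (`H658.tFam`), diamond operators `⟨d_j⟩` (`diaFam`).

* `opFam` : the combined family `t_ℓ` (`ℓ` good), `⟨d_j⟩` (`j : ι`) on `X_K(A)`;
* `rel_int_of_complex`, `rel_coeff_of_complex` : a noncommutative polynomial in the `t_ℓ`, `⟨d_j⟩`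
  vanishing on the parabolic classes in `Hom(K, ℂ)` vanishes on the parabolic classes in
  `Hom(K, ℤ)` and in `Hom(K, A)`, `A` torsion-free;
* `chiRel` : the `χ`-relations `span {⟨d_j⟩ y - χ j • y | y ∈ V}`;
* `suppRel` : **SUPP-REL.**  `V ⊆ X_K(𝒪)` a submodule of parabolic classes stable under the
  `⟨d_j⟩`, `a : T → End_𝒪 V` an action with `a (τ ℓ) = t_ℓ`, and `x : T → 𝒪'` a point of `T` with
  `x t = 0` as soon as `a t V ⊆ chiRel` (i.e. `x` kills the annihilator of `V / chiRel`).  Then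
  `P(x (τ ℓ), χ j) = 0` for every `P` vanishing on the parabolic classes in `Hom(K, ℂ)`.
  This is the hypothesis of the Eichler–Shimura dictionary in its relation (character) form.
-/

set_option autoImplicit false
set_option linter.unusedSectionVars false
set_option linter.style.haveILetI false

noncomputable section

namespace Fermat.Agent.S38.H227

open CongruenceSubgroup ModularCurve ModularCurve.Period
open Fermat.Agent.S59.TW.H653 Fermat.Agent.S59.TW.H658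
open scoped MatrixGroups

variable {M : ℕ} {K : Subgroup SL(2, ℤ)}

section Ops

variable (hK : IsMid M K) (A : Type*) [AddCommGroup A]

/-- The diamond operators `⟨d_j⟩` as `ℤ`-linear endomorphisms of `X_K(A)`. -/
def diaFam {ι : Type*} (dv : ι → (ZMod M)ˣ) (j : ι) : Module.End ℤ (Additive K →+ A) :=
  (AddMonoidHom.mk' (diamondU hK (dv j)) (diamondU_add hK (dv j))).toIntLinearMap

/-- The combined family: `t_ℓ = ⟨u ℓ⟩ T_ℓ` for the good primes, and the diamond operators. -/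
def opFam {N' : ℕ} (hMN : M ∣ N') (u : ℕ → (ZMod M)ˣ) {S : Set ℕ} {ι : Type*}
    (dv : ι → (ZMod M)ˣ) : GoodPrime N' S ⊕ ι → Module.End ℤ (Additive K →+ A) :=
  Sum.elim (tFam hK A hMN u) (diaFam hK A dv)

variable {A}

@[simp] theorem diaFam_apply {ι : Type*} (dv : ι → (ZMod M)ˣ) (j : ι) (φ : Additive K →+ A) :
    diaFam hK A dv j φ = diamondU hK (dv j) φ := rfl

@[simp] theorem opFam_inl {N' : ℕ} (hMN : M ∣ N') (u : ℕ → (ZMod M)ˣ) {S : Set ℕ} {ι : Type*}
    (dv : ι → (ZMod M)ˣ) (i : GoodPrime N' S) :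
    opFam hK A hMN u dv (Sum.inl i) = tFam hK A hMN u i := rfl

@[simp] theorem opFam_inr {N' : ℕ} (hMN : M ∣ N') (u : ℕ → (ZMod M)ˣ) {S : Set ℕ} {ι : Type*}
    (dv : ι → (ZMod M)ˣ) (j : ι) :
    opFam hK A hMN u dv (Sum.inr j : GoodPrime N' S ⊕ ι) = diaFam hK A dv j := rfl

theorem opFam_comp {B : Type*} [AddCommGroup B] {N' : ℕ} (hMN : M ∣ N') (u : ℕ → (ZMod M)ˣ)
    {S : Set ℕ} {ι : Type*} (dv : ι → (ZMod M)ˣ) (s : GoodPrime N' S ⊕ ι) (π : A →+ B)
    (φ : Additive K →+ A) :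
    opFam hK B hMN u dv s (π.comp φ) = π.comp (opFam hK A hMN u dv s φ) := by
  rcases s with i | j
  · exact tFam_comp hK hMN u i π φ
  · exact diamondU_comp hK (dv j) π φ

/-- The operators are linear over a commutative coefficient ring. -/
theorem opFam_smul {R : Type*} [CommRing R] {N' : ℕ} (hMN : M ∣ N') (u : ℕ → (ZMod M)ˣ)
    {S : Set ℕ} {ι : Type*} (dv : ι → (ZMod M)ˣ) (s : GoodPrime N' S ⊕ ι) (r : R)
    (φ : Additive K →+ R) :
    opFam hK R hMN u dv s (r • φ) = r • opFam hK R hMN u dv s φ := by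
  have h1 : ∀ ψ : Additive K →+ R, r • ψ = (AddMonoidHom.mulLeft r).comp ψ := fun ψ =>
    AddMonoidHom.ext fun _ => rfl
  rw [h1, h1, opFam_comp]

/-- The diamond operators commute with the whole family. -/
theorem opFam_comm [NeZero M] {N' : ℕ} (hMN : M ∣ N') (u : ℕ → (ZMod M)ˣ)
    {S : Set ℕ} {ι : Type*} (dv : ι → (ZMod M)ˣ) (s : GoodPrime N' S ⊕ ι) (j : ι)
    (φ : Additive K →+ A) :
    opFam hK A hMN u dv s (opFam hK A hMN u dv (Sum.inr j : GoodPrime N' S ⊕ ι) φ)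
      = opFam hK A hMN u dv (Sum.inr j : GoodPrime N' S ⊕ ι) (opFam hK A hMN u dv s φ) := by
  rcases s with i | j'
  · haveI : Fact i.1.Prime := ⟨i.2.1⟩
    have hℓ : ¬ i.1 ∣ M := fun h => i.2.2.1 (h.trans hMN)
    show diamondU hK (u i.1) (TK M K i.1 (diamondU hK (dv j) φ))
      = diamondU hK (dv j) (diamondU hK (u i.1) (TK M K i.1 φ))
    rw [diamondU_TK hK hℓ, ← diamondU_mul, ← diamondU_mul, mul_comm]
  · show diamondU hK (dv j') (diamondU hK (dv j) φ) = diamondU hK (dv j) (diamondU hK (dv j') φ)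
    rw [← diamondU_mul, ← diamondU_mul, mul_comm]

end Ops

section Rel

variable [NeZero M] [K.FiniteIndex]

/-- A relation on the complex parabolic classes holds on the integral ones. -/
theorem rel_int_of_complex (hK : IsMid M K) {N' : ℕ} (hMN : M ∣ N') (u : ℕ → (ZMod M)ˣ)
    {S : Set ℕ} {ι : Type*} (dv : ι → (ZMod M)ˣ) (P : FreeAlgebra ℤ (GoodPrime N' S ⊕ ι))
    (hP : ∀ y : Additive K →+ ℂ, IsParabolicHom K y →
      FreeAlgebra.lift ℤ (opFam hK ℂ hMN u dv) P y = 0)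
    (y : Additive K →+ ℤ) (hy : IsParabolicHom K y) :
    FreeAlgebra.lift ℤ (opFam hK ℤ hMN u dv) P y = 0 := by
  apply castHom_injective
  rw [lift_intertwine (opFam hK ℤ hMN u dv) (opFam hK ℂ hMN u dv) (castHom _)
    (fun s m => (opFam_comp hK hMN u dv s (Int.castAddHom ℂ) m).symm) P y, map_zero]
  exact hP _ (isParabolicHom_castHom.mpr hy)

/-- A relation on the complex parabolic classes holds on the parabolic classes with torsion-free
coefficients. -/
theorem rel_coeff_of_complex {A : Type*} [AddCommGroup A] [Module.IsTorsionFree ℤ A]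
    (hK : IsMid M K) {N' : ℕ} (hMN : M ∣ N') (u : ℕ → (ZMod M)ˣ)
    {S : Set ℕ} {ι : Type*} (dv : ι → (ZMod M)ˣ) (P : FreeAlgebra ℤ (GoodPrime N' S ⊕ ι))
    (hP : ∀ y : Additive K →+ ℂ, IsParabolicHom K y →
      FreeAlgebra.lift ℤ (opFam hK ℂ hMN u dv) P y = 0)
    (y : Additive K →+ A) (hy : IsParabolicHom K y) :
    FreeAlgebra.lift ℤ (opFam hK A hMN u dv) P y = 0 := by
  haveI := fg_of_finiteIndex K
  refine hom_induction_of_torsionFree (parSet K)
    (fun y => FreeAlgebra.lift ℤ (opFam hK A hMN u dv) P y = 0) ?_ (map_zero _) ?_ y hy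
  · intro φ ψ hφ hψ
    rw [map_add, hφ, hψ, add_zero]
  · intro ψ a hψ
    have h1 := lift_intertwine (opFam hK ℤ hMN u dv) (opFam hK A hMN u dv)
      (compAdd _ (zmultiplesHom A a))
      (fun s m => (opFam_comp hK hMN u dv s (zmultiplesHom A a) m).symm) P ψ
    simp only [compAdd_apply] at h1
    rw [← h1, rel_int_of_complex hK hMN u dv P hP ψ hψ]
    exact AddMonoidHom.comp_zero _

end Rel

section Main

variable [NeZero M] [K.FiniteIndex]

/-- The `χ`-relations in `V ⊆ X_K(𝒪)`: the `𝒪`-span of the `⟨d_j⟩ y - χ j • y`, `y ∈ V`. -/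
def chiRel (hK : IsMid M K) {𝒪 : Type*} [CommRing 𝒪] {ι : Type*} (dv : ι → (ZMod M)ˣ)
    (χ : ι → 𝒪) (V : Submodule 𝒪 (Additive K →+ 𝒪)) : Submodule 𝒪 (Additive K →+ 𝒪) :=
  Submodule.span 𝒪 {w | ∃ j, ∃ y ∈ V, w = diamondU hK (dv j) y - χ j • y}

/-- **SUPP-REL.**  A point of `T` through the annihilator of `V` modulo the `χ`-relations
satisfies every relation of the operators `t_ℓ`, `⟨d_j⟩` on the complex parabolic classes, the
`⟨d_j⟩` being replaced by the scalars `χ j`. -/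
theorem suppRel (hK : IsMid M K) {N' : ℕ} (hMN : M ∣ N') (u : ℕ → (ZMod M)ˣ) (S : Set ℕ)
    {ι : Type*} (dv : ι → (ZMod M)ˣ)
    {𝒪 : Type*} [CommRing 𝒪] [Module.IsTorsionFree ℤ 𝒪] (χ : ι → 𝒪)
    (V : Submodule 𝒪 (Additive K →+ 𝒪)) (hpar : ∀ v ∈ V, IsParabolicHom K v)
    (hVd : ∀ j, ∀ v ∈ V, diamondU hK (dv j) v ∈ V)
    {T : Type*} [CommRing T] [Algebra 𝒪 T] (a : T →ₐ[𝒪] Module.End 𝒪 V)
    (τ : GoodPrime N' S → T)
    (ha : ∀ (i : GoodPrime N' S) (v : V),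
      ((a (τ i) v : V) : Additive K →+ 𝒪) = tFam hK 𝒪 hMN u i v)
    {𝒪' : Type*} [CommRing 𝒪'] [Algebra 𝒪 𝒪'] (x : T →ₐ[𝒪] 𝒪')
    (hx : ∀ t : T, (∀ v : V, ((a t v : V) : Additive K →+ 𝒪) ∈ chiRel hK dv χ V) → x t = 0)
    (P : FreeAlgebra ℤ (GoodPrime N' S ⊕ ι))
    (hP : ∀ y : Additive K →+ ℂ, IsParabolicHom K y →
      FreeAlgebra.lift ℤ (opFam hK ℂ hMN u dv) P y = 0) :
    FreeAlgebra.lift ℤ (Sum.elim (fun i => x (τ i)) (fun j => algebraMap 𝒪 𝒪' (χ j))) P = 0 := by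
  have hBV : ∀ s : GoodPrime N' S ⊕ ι, ∀ v ∈ V, opFam hK 𝒪 hMN u dv s v ∈ V := by
    intro s v hv
    rcases s with i | j
    · have := ha i ⟨v, hv⟩
      rw [opFam_inl, ← this]
      exact (a (τ i) ⟨v, hv⟩).2
    · exact hVd j v hv
  refine suppRel_core V (opFam hK 𝒪 hMN u dv) χ a τ
    (fun s c y => opFam_smul hK hMN u dv s c y) hBV
    (fun s j v _ => opFam_comm hK hMN u dv s j v) ha x hx P
    (fun v hv => rel_coeff_of_complex hK hMN u dv P hP v (hpar v hv))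

end Main

end Fermat.Agent.S38.H227
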