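import Mathlib

/-!
# Row HARD / S59-TW, (NU): SUPP-REL, abstract core (Mathlib only)   (helper227)

`V ⊆ X` an `𝒪`-submodule stable under a family `B : σ₁ ⊕ σ₂ → End_ℤ X` of `𝒪`-linear operators
(think: `X = Hom(K, 𝒪)`, `B (inl ℓ) = ⟨u ℓ⟩ T_ℓ`, `B (inr j) = ⟨d_j⟩` a diamond operator), the
`B (inr j)` commuting with all the `B s` on `V`; `χ : σ₂ → 𝒪` scalars and
`W = span {B (inr j) y - χ j • y | y ∈ V}` the `χ`-relations.  A commutative `𝒪`-algebra `T` acts
on `V` by `a`, `a (τ i) = B (inl i)` on `V`, and `x : T → 𝒪'` is a point of `T` through the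
annihilator of `V / (W ∩ V)`, i.e. `x t = 0` as soon as `a t V ⊆ W`.

`suppRel_core` : every noncommutative polynomial `P` in `σ₁ ⊕ σ₂` with `P(B) = 0` on `V` satisfies
`P(x (τ i), χ j) = 0` in `𝒪'`.
-/

set_option autoImplicit false

namespace Fermat.Agent.S38.H227

section Core

variable {𝒪 : Type*} [CommRing 𝒪] {X : Type*} [AddCommGroup X] [Module 𝒪 X]
  {σ₁ σ₂ : Type*}

/-- The `χ`-relations: the `𝒪`-span of the `B (inr j) y - χ j • y`, `y ∈ V`. -/
def relSpan (V : Submodule 𝒪 X) (B : σ₁ ⊕ σ₂ → Module.End ℤ X) (χ : σ₂ → 𝒪) : Submodule 𝒪 X :=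
  Submodule.span 𝒪 {w | ∃ j, ∃ y ∈ V, w = B (Sum.inr j) y - χ j • y}

variable (V : Submodule 𝒪 X) (B : σ₁ ⊕ σ₂ → Module.End ℤ X) (χ : σ₂ → 𝒪)

/-- The `χ`-relations are stable under the operators. -/
theorem relSpan_stable_gen
    (hBlin : ∀ s (c : 𝒪) (x : X), B s (c • x) = c • B s x)
    (hBV : ∀ s, ∀ v ∈ V, B s v ∈ V)
    (hcomm : ∀ s j, ∀ v ∈ V, B s (B (Sum.inr j) v) = B (Sum.inr j) (B s v))
    (s : σ₁ ⊕ σ₂) (w : X) (hw : w ∈ relSpan V B χ) : B s w ∈ relSpan V B χ := by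
  unfold relSpan at hw ⊢
  induction hw using Submodule.span_induction with
  | mem w hw =>
    obtain ⟨j, y, hy, rfl⟩ := hw
    refine Submodule.subset_span ⟨j, B s y, hBV s y hy, ?_⟩
    rw [map_sub, hcomm s j y hy, hBlin]
  | zero => rw [map_zero]; exact Submodule.zero_mem _
  | add a b _ _ ha hb => rw [map_add]; exact Submodule.add_mem _ ha hb
  | smul c a _ ha => rw [hBlin]; exact Submodule.smul_mem _ c ha

/-- The `χ`-relations are stable under all noncommutative polynomials in the operators. -/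
theorem relSpan_stable
    (hBlin : ∀ s (c : 𝒪) (x : X), B s (c • x) = c • B s x)
    (hBV : ∀ s, ∀ v ∈ V, B s v ∈ V)
    (hcomm : ∀ s j, ∀ v ∈ V, B s (B (Sum.inr j) v) = B (Sum.inr j) (B s v))
    (Q : FreeAlgebra ℤ (σ₁ ⊕ σ₂)) (w : X) (hw : w ∈ relSpan V B χ) :
    FreeAlgebra.lift ℤ B Q w ∈ relSpan V B χ := by
  induction Q using FreeAlgebra.induction generalizing w with
  | grade0 r =>
    rw [AlgHom.commutes, Module.algebraMap_end_apply]
    exact zsmul_mem hw r
  | grade1 s =>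
    rw [FreeAlgebra.lift_ι_apply]
    exact relSpan_stable_gen V B χ hBlin hBV hcomm s w hw
  | mul a b ha hb =>
    rw [map_mul, Module.End.mul_apply]
    exact ha _ (hb _ hw)
  | add a b ha hb =>
    rw [map_add, LinearMap.add_apply]
    exact Submodule.add_mem _ (ha _ hw) (hb _ hw)

variable {T : Type*} [CommRing T] [Algebra 𝒪 T] (a : T →ₐ[𝒪] Module.End 𝒪 V) (τ : σ₁ → T)

/-- The generators of `T` attached to the two families: `τ i` and the scalars `χ j`. -/
def genT : σ₁ ⊕ σ₂ → T := Sum.elim τ (fun j => algebraMap 𝒪 T (χ j))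

/-- Modulo the `χ`-relations, the action of `P(τ, χ) ∈ T` on `V` is `P(B)`. -/
theorem act_sub_lift_mem
    (hBlin : ∀ s (c : 𝒪) (x : X), B s (c • x) = c • B s x)
    (hBV : ∀ s, ∀ v ∈ V, B s v ∈ V)
    (hcomm : ∀ s j, ∀ v ∈ V, B s (B (Sum.inr j) v) = B (Sum.inr j) (B s v))
    (ha : ∀ i (v : V), ((a (τ i) v : V) : X) = B (Sum.inl i) v)
    (Q : FreeAlgebra ℤ (σ₁ ⊕ σ₂)) (v : V) :
    ((a (FreeAlgebra.lift ℤ (genT χ τ) Q) v : V) : X) - FreeAlgebra.lift ℤ B Q v
      ∈ relSpan V B χ := by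
  induction Q using FreeAlgebra.induction generalizing v with
  | grade0 r =>
    have h1 : a (algebraMap ℤ T r) = (r : Module.End 𝒪 V) := by
      rw [algebraMap_int_eq, eq_intCast, map_intCast]
    have h2 : (((r : Module.End 𝒪 V) v : V) : X) = r • (v : X) := by
      rw [Module.End.intCast_apply]
      rfl
    rw [AlgHom.commutes, AlgHom.commutes, h1, h2, Module.algebraMap_end_apply, sub_self]
    exact Submodule.zero_mem _
  | grade1 s =>
    rw [FreeAlgebra.lift_ι_apply, FreeAlgebra.lift_ι_apply]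
    rcases s with i | j
    · show ((a (τ i) v : V) : X) - B (Sum.inl i) v ∈ _
      rw [ha, sub_self]
      exact Submodule.zero_mem _
    · show ((a (algebraMap 𝒪 T (χ j)) v : V) : X) - B (Sum.inr j) v ∈ _
      rw [AlgHom.commutes, Module.algebraMap_end_apply, Submodule.coe_smul]
      have h : χ j • (v : X) - B (Sum.inr j) v = -(B (Sum.inr j) v - χ j • (v : X)) := by abel
      rw [h]
      exact Submodule.neg_mem _ (Submodule.subset_span ⟨j, v, v.2, rfl⟩)
  | mul p q hp hq =>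
    rw [map_mul, map_mul, map_mul, Module.End.mul_apply, Module.End.mul_apply]
    have h : ((a (FreeAlgebra.lift ℤ (genT χ τ) p) (a (FreeAlgebra.lift ℤ (genT χ τ) q) v) : V)
          : X) - FreeAlgebra.lift ℤ B p (FreeAlgebra.lift ℤ B q v)
        = (((a (FreeAlgebra.lift ℤ (genT χ τ) p) (a (FreeAlgebra.lift ℤ (genT χ τ) q) v) : V)
          : X) - FreeAlgebra.lift ℤ B p ((a (FreeAlgebra.lift ℤ (genT χ τ) q) v : V) : X))
          + FreeAlgebra.lift ℤ B p
            (((a (FreeAlgebra.lift ℤ (genT χ τ) q) v : V) : X) - FreeAlgebra.lift ℤ B q v) := by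
      rw [map_sub]; abel
    rw [h]
    exact Submodule.add_mem _ (hp _) (relSpan_stable V B χ hBlin hBV hcomm p _ (hq v))
  | add p q hp hq =>
    rw [map_add, map_add, map_add, LinearMap.add_apply, LinearMap.add_apply, Submodule.coe_add]
    have h : ((a (FreeAlgebra.lift ℤ (genT χ τ) p) v : V) : X)
          + ((a (FreeAlgebra.lift ℤ (genT χ τ) q) v : V) : X)
          - (FreeAlgebra.lift ℤ B p v + FreeAlgebra.lift ℤ B q v)
        = (((a (FreeAlgebra.lift ℤ (genT χ τ) p) v : V) : X) - FreeAlgebra.lift ℤ B p v)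
          + (((a (FreeAlgebra.lift ℤ (genT χ τ) q) v : V) : X) - FreeAlgebra.lift ℤ B q v) := by
      abel
    rw [h]
    exact Submodule.add_mem _ (hp v) (hq v)

/-- Evaluation at a point commutes with noncommutative polynomials. -/
theorem point_lift {𝒪' : Type*} [CommRing 𝒪'] [Algebra 𝒪 𝒪'] (x : T →ₐ[𝒪] 𝒪')
    (Q : FreeAlgebra ℤ (σ₁ ⊕ σ₂)) :
    x (FreeAlgebra.lift ℤ (genT χ τ) Q)
      = FreeAlgebra.lift ℤ (Sum.elim (fun i => x (τ i)) (fun j => algebraMap 𝒪 𝒪' (χ j))) Q := by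
  have h : ((x : T →+* 𝒪').toIntAlgHom).comp (FreeAlgebra.lift ℤ (genT χ τ))
      = FreeAlgebra.lift ℤ (Sum.elim (fun i => x (τ i)) (fun j => algebraMap 𝒪 𝒪' (χ j))) := by
    apply FreeAlgebra.hom_ext
    funext s
    rcases s with i | j
    · simp [genT]
    · simp [genT]
  rw [← h]
  rfl

/-- **SUPP-REL, abstract core.**  A point `x` of `T` through the annihilator of `V` modulo the
`χ`-relations satisfies every relation of the operators on `V`, the diamond operators `B (inr j)`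
being replaced by the scalars `χ j`. -/
theorem suppRel_core
    (hBlin : ∀ s (c : 𝒪) (x : X), B s (c • x) = c • B s x)
    (hBV : ∀ s, ∀ v ∈ V, B s v ∈ V)
    (hcomm : ∀ s j, ∀ v ∈ V, B s (B (Sum.inr j) v) = B (Sum.inr j) (B s v))
    (ha : ∀ i (v : V), ((a (τ i) v : V) : X) = B (Sum.inl i) v)
    {𝒪' : Type*} [CommRing 𝒪'] [Algebra 𝒪 𝒪'] (x : T →ₐ[𝒪] 𝒪')
    (hx : ∀ t : T, (∀ v : V, ((a t v : V) : X) ∈ relSpan V B χ) → x t = 0)
    (P : FreeAlgebra ℤ (σ₁ ⊕ σ₂)) (hP : ∀ v ∈ V, FreeAlgebra.lift ℤ B P v = 0) :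
    FreeAlgebra.lift ℤ (Sum.elim (fun i => x (τ i)) (fun j => algebraMap 𝒪 𝒪' (χ j))) P = 0 := by
  rw [← point_lift χ τ x P]
  refine hx _ fun v => ?_
  have h := act_sub_lift_mem V B χ a τ hBlin hBV hcomm ha P v
  rwa [hP v v.2, sub_zero] at h

end Core

end Fermat.Agent.S38.H227
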